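import Fermat.Agent.Isogeny.Quotient
import Fermat.Agent.SmallPrimes.FreyCofixed

/-!
Consequences over `ℚ`: quotients exist, and a cofixed line gives an isogenous curve with a rational
point of order `n`.
-/

set_option autoImplicit false

namespace FLTAgent.Isogeny

open WeierstrassCurve WeierstrassCurve.Affine WeierstrassCurve.Affine.Point
open scoped WeierstrassCurve.Affine

local notation "Qbar" => AlgebraicClosure ℚ

theorem hasOddQuotients (W : WeierstrassCurve ℚ) [W.IsElliptic] :
    SmallPrimes.HasOddQuotients W := by
  intro C hC hodd hstab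
  have : Algebra.IsAlgebraic ℚ Qbar := AlgebraicClosure.isAlgebraic ℚ
  obtain ⟨W', -, φ, hker, -, heq⟩ := exists_quotient W C hodd hstab
  exact ⟨W', φ, hker, heq⟩

end FLTAgent.Isogeny
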