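import Fermat.Agent.WeilPairing.Translate
import Mathlib.Algebra.TrivSqZeroExt.Basic
import Mathlib.Algebra.Polynomial.Derivative

/-!
The invariant derivation `D` of the function field of a Weierstrass curve (`D x = 2y + a₁x + a₃`),
its field of constants, and the additivity of the invariant differential.
-/

set_option autoImplicit false
set_option linter.unusedSectionVars false

open scoped nonZeroDivisors Polynomial.Bivariate WeierstrassCurve.Affine
open Polynomial
open WeierstrassCurve WeierstrassCurve.Affine WeierstrassCurve.Affine.CoordinateRing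
open FLTAgent.WeilPairing

namespace FLTAgent.Isogeny

noncomputable section

variable {K : Type*} [Field K] {W : Affine K}

local notation "F" => W.FunctionField
local notation "ι" => const W

/-- `2y + a₁x + a₃` of a pair of functions. -/
def psi (V : Affine K) (U Z : F) : F := 2 * Z + ι V.a₁ * U + ι V.a₃

/-- `3x² + 2a₂x + a₄ - a₁y` of a pair of functions. -/
def num (V : Affine K) (U Z : F) : F := 3 * U ^ 2 + 2 * ι V.a₂ * U + ι V.a₄ - ι V.a₁ * Z

variable (W) in
/-- The curve equation in the function field. -/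
theorem gen_equation : yfun W ^ 2 + ι W.a₁ * xfun W * yfun W + ι W.a₃ * yfun W =
    xfun W ^ 3 + ι W.a₂ * xfun W ^ 2 + ι W.a₄ * xfun W + ι W.a₆ := by
  have eg := (equation_iff (W := (W⁄F : Affine F)) (xfun W) (yfun W)).mp
    functionField_equation
  simpa only [WeierstrassCurve.baseChange, WeierstrassCurve.map_a₁, WeierstrassCurve.map_a₂,
    WeierstrassCurve.map_a₃, WeierstrassCurve.map_a₄, WeierstrassCurve.map_a₆,
    algebraMap_functionField] using eg

variable (W) in
/-- The structure map into the dual numbers. -/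
def constDual : K →+* TrivSqZeroExt F F := (TrivSqZeroExt.inlHom F F).comp ι

theorem dual_equation : (W.map (constDual W)).toAffine.Equation
    (TrivSqZeroExt.inl (xfun W) + TrivSqZeroExt.inr (psi W (xfun W) (yfun W)))
    (TrivSqZeroExt.inl (yfun W) + TrivSqZeroExt.inr (num W (xfun W) (yfun W))) := by
  rw [equation_iff]
  have eg := gen_equation W
  ext
  · simpa [constDual, TrivSqZeroExt.fst_pow, TrivSqZeroExt.fst_mul] using eg
  · simp [constDual, TrivSqZeroExt.snd_pow, TrivSqZeroExt.snd_mul, TrivSqZeroExt.fst_mul,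
      psi, num]
    ring

variable (W) in
/-- The dual number lift on the coordinate ring. -/
def dualHom : W.CoordinateRing →+* TrivSqZeroExt F F :=
  evalHom (constDual W) _ _ dual_equation

theorem fst_dualHom (a : W.CoordinateRing) :
    (dualHom W a).fst = algebraMap W.CoordinateRing F a := by
  have h : (TrivSqZeroExt.fstHom F F F).toRingHom.comp (dualHom W) =
      algebraMap W.CoordinateRing F := by
    refine coordinateRing_hom_ext (fun c => ?_) ?_ ?_
    · simp [dualHom, evalHom_algebraMap, constDual, const]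
    · simp only [RingHom.comp_apply, dualHom, evalHom_X]
      simp [xfun]
    · simp only [RingHom.comp_apply, dualHom, evalHom_Y]
      simp [yfun]
  exact RingHom.congr_fun h a

theorem isUnit_dualHom (s : W.CoordinateRing⁰) : IsUnit (dualHom W s) := by
  rw [TrivSqZeroExt.isUnit_iff_isUnit_fst, fst_dualHom]
  exact IsLocalization.map_units F s

variable (W) in
/-- The dual number lift on the function field. -/
def dualLift : F →+* TrivSqZeroExt F F :=
  IsLocalization.lift (M := W.CoordinateRing⁰) isUnit_dualHom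

theorem dualLift_algebraMap (a : W.CoordinateRing) :
    dualLift W (algebraMap W.CoordinateRing F a) = dualHom W a :=
  IsLocalization.lift_eq _ _

@[simp] theorem fst_dualLift (f : F) : (dualLift W f).fst = f := by
  have h : (TrivSqZeroExt.fstHom F F F).toRingHom.comp (dualLift W) = RingHom.id F :=
    IsLocalization.ringHom_ext W.CoordinateRing⁰ (RingHom.ext fun a => by
      simp [dualLift_algebraMap, fst_dualHom])
  exact RingHom.congr_fun h f

/-- The invariant derivation. -/
def D (f : F) : F := (dualLift W f).snd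

theorem D_add (f g : F) : D (f + g) = D f + D g := by simp [D]

theorem D_sub (f g : F) : D (f - g) = D f - D g := by simp [D]

theorem D_neg (f : F) : D (-f) = -D f := by simp [D]

theorem D_mul (f g : F) : D (f * g) = f * D g + g * D f := by
  simp [D, TrivSqZeroExt.snd_mul]; ring

@[simp] theorem D_const (c : K) : D (ι c) = 0 := by
  rw [D, const, RingHom.comp_apply, dualLift_algebraMap, dualHom, evalHom_algebraMap]
  simp [constDual]

@[simp] theorem D_zero : D (0 : F) = 0 := by simp [D]

@[simp] theorem D_one : D (1 : F) = 0 := by simp [D]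

theorem D_sum {α : Type*} (s : Finset α) (f : α → F) : D (∑ i ∈ s, f i) = ∑ i ∈ s, D (f i) := by
  classical
  induction s using Finset.induction_on with
  | empty => simp
  | insert a t ha ih => rw [Finset.sum_insert ha, Finset.sum_insert ha, D_add, ih]

theorem D_pow (f : F) (n : ℕ) : D (f ^ (n + 1)) = (n + 1) * f ^ n * D f := by
  induction n with
  | zero => simp
  | succ n ih => rw [pow_succ, D_mul, ih, pow_succ f n]; push_cast; ring

theorem D_xfun : D (xfun W) = psi W (xfun W) (yfun W) := by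
  rw [D, xfun, dualLift_algebraMap, dualHom, evalHom_X]
  simp [xfun, yfun]

theorem D_yfun : D (yfun W) = num W (xfun W) (yfun W) := by
  rw [D, yfun, dualLift_algebraMap, dualHom, evalHom_Y]
  simp [xfun, yfun]

theorem D_psi_gen : 2 * D (psi W (xfun W) (yfun W)) =
    2 * (2 * num W (xfun W) (yfun W) + ι W.a₁ * psi W (xfun W) (yfun W)) := by
  rw [psi, D_add, D_add, D_mul, D_mul, D_const, D_const, D_xfun, D_yfun]
  rw [show (2 : F) = ι 2 by rw [map_ofNat], D_const, map_ofNat, psi, num]
  ring

section Constants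

variable [CharZero K] [IsAlgClosed K]

/-- Evaluation of a polynomial at `x`. -/
abbrev atX (p : K[X]) : F := p.eval₂ ι (xfun W)

theorem atX_eq (p : K[X]) : atX p = algebraMap W.CoordinateRing F (mk W (C p)) := by
  have h : Polynomial.eval₂RingHom ι (xfun W) =
      ((algebraMap W.CoordinateRing F).comp (mk W)).comp C := by
    refine Polynomial.ringHom_ext (fun c => ?_) ?_
    · simp [const]; rfl
    · simp [xfun]
  exact RingHom.congr_fun h p

theorem D_atX (p : K[X]) : D (atX (W := W) p) = atX (derivative p) * psi W (xfun W) (yfun W) := by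
  induction p using Polynomial.induction_on' with
  | add p q hp hq => simp [D_add, hp, hq, add_mul]
  | monomial n a =>
    cases n with
    | zero => simp
    | succ n => simp [D_mul, D_pow, D_xfun]; ring

theorem atX_injective : Function.Injective (atX (W := W)) := by
  intro p q h
  rw [atX_eq, atX_eq] at h
  have h' := IsFractionRing.injective W.CoordinateRing F h
  have := smul_basis_eq_zero (W' := W) (p := p - q) (q := 0)
    (by simp [CoordinateRing.smul, map_sub, h'])
  exact sub_eq_zero.1 this.1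

/-- `1` and `2y + a₁x + a₃` are independent over `K[x]`. -/
theorem eq_zero_of_add_mul_psi {p q : K[X]} (h : atX p + atX q * psi W (xfun W) (yfun W) = 0) :
    p = 0 ∧ q = 0 := by
  have h' : mk W (C (p + q * (C W.a₁ * X + C W.a₃))) + mk W (C (2 * q)) * mk W Y = 0 := by
    apply IsFractionRing.injective W.CoordinateRing F
    rw [map_add, map_mul, ← atX_eq, ← atX_eq, map_zero, ← h]
    simp only [atX, psi, eval₂_add, eval₂_mul, eval₂_C, eval₂_X, Polynomial.eval₂_ofNat, yfun]
    ring
  have := smul_basis_eq_zero (W' := W) (p := p + q * (C W.a₁ * X + C W.a₃)) (q := 2 * q)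
    (by simpa [CoordinateRing.smul] using h')
  have hq : q = 0 := (mul_eq_zero.1 this.2).resolve_left two_ne_zero
  exact ⟨by simpa [hq] using this.1, hq⟩

omit [IsAlgClosed K] in
theorem natDegree_eq_of_wronskian {p a : K[X]} (hp : p ≠ 0) (ha : a ≠ 0)
    (h : derivative p * a = p * derivative a) : p.natDegree = a.natDegree := by
  by_contra hne
  rcases Nat.eq_zero_or_pos p.natDegree with hp0 | hp0
  · rw [derivative_of_natDegree_zero hp0, zero_mul] at h
    have := (mul_eq_zero.1 h.symm).resolve_left hp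
    exact hne (hp0.trans (derivative_eq_zero.1 this).symm)
  rcases Nat.eq_zero_or_pos a.natDegree with ha0 | ha0
  · rw [derivative_of_natDegree_zero ha0, mul_zero] at h
    have := (mul_eq_zero.1 h).resolve_right ha
    exact hne ((derivative_eq_zero.1 this).trans ha0.symm)
  have h' := congrArg leadingCoeff h
  rw [leadingCoeff_mul, leadingCoeff_mul, leadingCoeff_derivative, leadingCoeff_derivative] at h'
  apply hne
  have : (p.natDegree : K) * (p.leadingCoeff * a.leadingCoeff)
      = a.natDegree * (p.leadingCoeff * a.leadingCoeff) := by linear_combination h'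
  exact_mod_cast mul_right_cancel₀
    (mul_ne_zero (leadingCoeff_ne_zero.2 hp) (leadingCoeff_ne_zero.2 ha)) this

omit [IsAlgClosed K] in
theorem exists_eq_C_mul_of_wronskian {p a : K[X]} (ha : a ≠ 0)
    (h : derivative p * a = p * derivative a) : ∃ c : K, p = C c * a := by
  refine ⟨p.coeff a.natDegree / a.leadingCoeff, ?_⟩
  set c := p.coeff a.natDegree / a.leadingCoeff with hc
  by_contra hne
  have hne' : p - C c * a ≠ 0 := sub_ne_zero.2 hne
  have hw : derivative (p - C c * a) * a = (p - C c * a) * derivative a := by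
    rw [derivative_sub, derivative_C_mul]; linear_combination h
  have hd := natDegree_eq_of_wronskian hne' ha hw
  apply leadingCoeff_ne_zero.2 hne'
  rw [leadingCoeff, hd, coeff_sub, coeff_C_mul, ← leadingCoeff, hc,
    div_mul_cancel₀ _ (leadingCoeff_ne_zero.2 ha), sub_self]

/-- The constants of `D` are the constants. -/
theorem eq_const_of_D_eq_zero {u : F} (h : D u = 0) : ∃ c : K, u = ι c := by
  obtain ⟨a, b, hb, rfl⟩ := IsFractionRing.div_surjective W.CoordinateRing u
  obtain ⟨p, q, rfl⟩ := exists_smul_basis_eq b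
  set A : K[X] := Algebra.norm K[X] (p • (1 : W.CoordinateRing) + q • mk W Y) with hA
  have hb0 : p • (1 : W.CoordinateRing) + q • mk W Y ≠ 0 := nonZeroDivisors.ne_zero hb
  have hA0 : A ≠ 0 := mt (norm_eq_zero_iff' W).1 hb0
  obtain ⟨b', hb'⟩ : ∃ b', (p • (1 : W.CoordinateRing) + q • mk W Y) * b' = mk W (C A) := by
    refine ⟨p • 1 + q • (-mk W Y - mk W (C (C W.a₁ * X + C W.a₃))), ?_⟩
    have hn := coe_norm_smul_basis (W' := W) p q
    rw [show mk W (C A) = AdjoinRoot.of W.polynomial A from AdjoinRoot.mk_C A, hA, hn]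
    simp only [CoordinateRing.smul, map_add, map_mul, map_sub, map_neg, mul_one]
  obtain ⟨p', q', hab⟩ := exists_smul_basis_eq (a * b')
  obtain ⟨P, Q, hPQ⟩ : ∃ P Q : K[X], (2 * atX A) * (algebraMap W.CoordinateRing F a /
      algebraMap W.CoordinateRing F (p • (1 : W.CoordinateRing) + q • mk W Y))
      = atX P + atX Q * psi W (xfun W) (yfun W) := by
    refine ⟨2 * p' - q' * (C W.a₁ * X + C W.a₃), q', ?_⟩
    have hb0' : algebraMap W.CoordinateRing F (p • (1 : W.CoordinateRing) + q • mk W Y) ≠ 0 := by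
      rw [ne_eq, map_eq_zero_iff _ (IsFractionRing.injective W.CoordinateRing F)]; exact hb0
    have : (2 * atX A) * (algebraMap W.CoordinateRing F a /
      algebraMap W.CoordinateRing F (p • (1 : W.CoordinateRing) + q • mk W Y))
        = 2 * algebraMap W.CoordinateRing F (a * b') := by
      rw [atX_eq, ← hb', map_mul, map_mul]
      field_simp
    rw [this, ← hab]
    simp only [CoordinateRing.smul, map_add, map_mul, mul_one, ← atX_eq, eval₂_sub, eval₂_mul,
      eval₂_add, eval₂_C, eval₂_X, Polynomial.eval₂_ofNat, psi, atX, yfun]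
    ring
  set u := algebraMap W.CoordinateRing F a /
    algebraMap W.CoordinateRing F (p • (1 : W.CoordinateRing) + q • mk W Y)
  -- differentiate
  have hD := congrArg D hPQ
  have h2 : D (2 : F) = 0 := by rw [← map_ofNat (const W) 2, D_const]
  rw [D_mul, D_mul, h, h2, D_add, D_mul, D_atX, D_atX, D_atX] at hD
  set f : K[X] := C 4 * X ^ 3 + C W.b₂ * X ^ 2 + C (2 * W.b₄) * X + C W.b₆ with hf
  have hpsi2 : psi W (xfun W) (yfun W) ^ 2 = atX f := by
    rw [hf]
    simp only [psi, atX, eval₂_add, eval₂_mul, eval₂_pow, eval₂_C, eval₂_X, WeierstrassCurve.b₂,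
      WeierstrassCurve.b₄, WeierstrassCurve.b₆, map_add, map_mul, map_pow, map_ofNat,
      Polynomial.eval₂_ofNat]
    linear_combination 4 * gen_equation W
  have hDpsi : 2 * D (psi W (xfun W) (yfun W)) = atX (derivative f) := by
    rw [D_psi_gen, hf]
    simp only [derivative_add, derivative_C_mul_X, derivative_C, derivative_C_mul_X_pow, add_zero]
    simp only [psi, num, atX, eval₂_add, eval₂_mul, eval₂_pow, eval₂_C, eval₂_X,
      WeierstrassCurve.b₂, WeierstrassCurve.b₄, map_add, map_mul, map_pow, map_ofNat,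
      Nat.cast_ofNat, Polynomial.eval₂_ofNat]
    push_cast
    ring_nf
  have hE : atX (2 * derivative Q * f * A + Q * derivative f * A - 2 * Q * f * derivative A) +
      atX (2 * derivative P * A - 2 * P * derivative A) * psi W (xfun W) (yfun W) = (0 : F) := by
    simp only [atX, eval₂_add, eval₂_sub, eval₂_mul, Polynomial.eval₂_ofNat] at hD hDpsi hpsi2 hPQ ⊢
    rw [← hpsi2, ← hDpsi]
    linear_combination (-2 * (derivative A).eval₂ ι (xfun W) * psi W (xfun W) (yfun W)) * hPQ.symm
      + 2 * A.eval₂ ι (xfun W) * hD.symm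
  obtain ⟨hQ', hP'⟩ := eq_zero_of_add_mul_psi hE
  obtain ⟨c, hc⟩ := exists_eq_C_mul_of_wronskian hA0
    (mul_left_cancel₀ (two_ne_zero (α := K[X])) (by linear_combination hP') :
      derivative P * A = P * derivative A)
  have hQ : Q = 0 := by
    by_contra hQ
    have hf3 : f.natDegree = 3 := natDegree_cubic (by norm_num)
    have hf0 : f ≠ 0 := by intro h0; rw [h0] at hf3; simp at hf3
    have := natDegree_eq_of_wronskian (p := f * Q ^ 2) (a := A ^ 2) (mul_ne_zero hf0 (pow_ne_zero 2 hQ))
      (pow_ne_zero 2 hA0) (by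
        simp only [derivative_mul, derivative_pow, Nat.cast_ofNat, map_ofNat, Nat.add_one_sub_one,
          pow_one]
        linear_combination Q * A * hQ')
    rw [natDegree_mul hf0 (pow_ne_zero 2 hQ), natDegree_pow, natDegree_pow, hf3] at this
    omega
  refine ⟨c / 2, ?_⟩
  have hAne : atX (W := W) A ≠ 0 := by
    rw [ne_eq, ← (show atX (W := W) (0 : K[X]) = 0 by simp)]
    exact fun h => hA0 (atX_injective h)
  rw [hQ, hc] at hPQ
  simp only [atX, eval₂_mul, eval₂_C, eval₂_zero, zero_mul, add_zero] at hPQ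
  rw [map_div₀, map_ofNat, eq_div_iff (by
    rw [← map_ofNat ι 2, ne_eq, map_eq_zero]; exact two_ne_zero)]
  exact mul_left_cancel₀ hAne (by simp only [atX]; linear_combination hPQ)

end Constants

section Omega

/-- The affine pair `(X, Y)` on `V` has invariant differential `c` for `D`. -/
def HasOmega (V : Affine K) (U Z c : F) : Prop :=
  D U = c * psi V U Z ∧ D Z = c * num V U Z

theorem D_div {f g : F} (hg : g ≠ 0) : D (f / g) * g = D f - f / g * D g := by
  have h := D_mul (f / g) g
  rw [div_mul_cancel₀ f hg] at h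
  linear_combination -h

/-- The derivative of the cubic along a chord, at one of its points. -/
theorem chord_deriv {a₁ a₂ a₃ a₄ a₆ X₁ Y₁ X₂ Y₂ l : F}
    (e₁ : Y₁ ^ 2 + a₁ * X₁ * Y₁ + a₃ * Y₁ = X₁ ^ 3 + a₂ * X₁ ^ 2 + a₄ * X₁ + a₆)
    (e₂ : Y₂ ^ 2 + a₁ * X₂ * Y₂ + a₃ * Y₂ = X₂ ^ 3 + a₂ * X₂ ^ 2 + a₄ * X₂ + a₆)
    (hl : l * (X₁ - X₂) = Y₁ - Y₂) (hne : X₁ - X₂ ≠ 0) :
    3 * X₁ ^ 2 + 2 * a₂ * X₁ + a₄ - a₁ * Y₁ - l * (2 * Y₁ + a₁ * X₁ + a₃) =
      (X₁ - X₂) * (X₁ - (l ^ 2 + a₁ * l - a₂ - X₁ - X₂)) := by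
  refine mul_right_cancel₀ hne ?_
  linear_combination -e₁ + e₂ + (l * (X₁ - X₂) + (Y₁ - Y₂) - 2 * Y₁ - a₁ * X₁ - a₃
    + a₁ * (X₁ - X₂)) * hl

/-- The invariant differential is additive. -/
theorem D_addX {V : Affine K} {X₁ Y₁ X₂ Y₂ c₁ c₂ : F}
    (e₁ : Y₁ ^ 2 + ι V.a₁ * X₁ * Y₁ + ι V.a₃ * Y₁ =
      X₁ ^ 3 + ι V.a₂ * X₁ ^ 2 + ι V.a₄ * X₁ + ι V.a₆)
    (e₂ : Y₂ ^ 2 + ι V.a₁ * X₂ * Y₂ + ι V.a₃ * Y₂ =
      X₂ ^ 3 + ι V.a₂ * X₂ ^ 2 + ι V.a₄ * X₂ + ι V.a₆)
    (h₁ : HasOmega V X₁ Y₁ c₁) (h₂ : HasOmega V X₂ Y₂ c₂) (hne : X₁ ≠ X₂)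
    {l X₃ : F} (hl : l = (Y₁ - Y₂) / (X₁ - X₂))
    (hX₃ : X₃ = l ^ 2 + ι V.a₁ * l - ι V.a₂ - X₁ - X₂) :
    D X₃ = (c₁ + c₂) * psi V X₃ (-(l * (X₃ - X₁) + Y₁) - ι V.a₁ * X₃ - ι V.a₃) := by
  have hd : X₁ - X₂ ≠ 0 := sub_ne_zero.2 hne
  have hl' : l * (X₁ - X₂) = Y₁ - Y₂ := by rw [hl, div_mul_cancel₀ _ hd]
  have hDl : D l * (X₁ - X₂) = (D Y₁ - D Y₂) - l * (D X₁ - D X₂) := by
    rw [hl, D_div hd, D_sub, D_sub]
  have E1 := chord_deriv e₁ e₂ hl' hd
  have E2 := chord_deriv (l := l) e₂ e₁ (by linear_combination -hl')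
    (sub_ne_zero.2 (Ne.symm hne))
  have hX' : l ^ 2 + ι V.a₁ * l - ι V.a₂ - X₂ - X₁ = X₃ := by rw [hX₃]; ring
  rw [← hX₃] at E1
  rw [hX'] at E2
  have hD : D l = c₁ * (X₁ - X₃) + c₂ * (X₂ - X₃) := by
    refine mul_right_cancel₀ hd ?_
    rw [hDl, h₁.1, h₁.2, h₂.1, h₂.2, num, num, psi, psi]
    linear_combination c₁ * E1 - c₂ * E2
  have hDX : D X₃ = (2 * l + ι V.a₁) * D l - D X₁ - D X₂ := by
    rw [hX₃, D_sub, D_sub, D_sub, D_add, pow_two, D_mul, D_mul, D_const, D_const]; ring
  rw [hDX, hD, h₁.1, h₂.1, psi, psi, psi]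
  linear_combination -2 * c₂ * hl'

end Omega

end

end FLTAgent.Isogeny
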