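import Fermat.Agent.Isogeny.Series

/-!
Adding a constant point to a point near infinity: the sum tends to the constant point.
-/

set_option autoImplicit false

namespace FLTAgent.Isogeny

variable {F : Type*} [Field F] {Γ₀ : Type*} [LinearOrderedCommGroupWithZero Γ₀]
  (v : Valuation F Γ₀)

/-- If `(U, V)` is near infinity and `(s, r)` is integral, then `(U, V) + (s, r)` tends to
`(s, r)`. -/
theorem chord_limit {a₁ a₂ a₃ a₄ a₆ U V s r l X Z : F} (h1 : a₁ ∈ v.integer)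
    (h2 : a₂ ∈ v.integer) (h3 : a₃ ∈ v.integer) (h4 : a₄ ∈ v.integer) (h6 : a₆ ∈ v.integer)
    (hs : s ∈ v.integer) (hr : r ∈ v.integer) (hU : 1 < v U)
    (e : V ^ 2 + a₁ * U * V + a₃ * V = U ^ 3 + a₂ * U ^ 2 + a₄ * U + a₆)
    (hl : l = (V - r) / (U - s)) (hX : X = l ^ 2 + a₁ * l - a₂ - U - s)
    (hZ : Z = -(l * (X - U) + V) - a₁ * X - a₃) :
    v (X - s) < 1 ∧ v (Z - r) < 1 := by
  have hU0 : U ≠ 0 := by rintro rfl; rw [map_zero] at hU; exact not_lt.2 zero_le_one hU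
  obtain ⟨z, hz⟩ : ∃ z, z = U⁻¹ := ⟨_, rfl⟩
  have hzv : v z < 1 := by rw [hz, map_inv₀]; exact inv_lt_one_of_one_lt₀ hU
  have hzm : z ∈ v.integer := (v.mem_integer_iff _).2 hzv.le
  have hUz : U * z = 1 := by rw [hz, mul_inv_cancel₀ hU0]
  -- the ordinate is of weight three
  obtain ⟨Vn, hVn⟩ : ∃ Vn, Vn = V * z ^ 2 := ⟨_, rfl⟩
  have hnn : Vn * (Vn + a₁ * z + a₃ * z ^ 2) = z * (1 + a₂ * z + a₄ * z ^ 2 + a₆ * z ^ 3) := by
    rw [hVn]
    linear_combination z ^ 4 * e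
      + (z * (U * z) ^ 2 + z * (U * z) + z + a₂ * z ^ 2 * (U * z) + a₂ * z ^ 2 + a₄ * z ^ 3
        - a₁ * V * z ^ 3) * hUz
  have hVnv : v Vn < 1 := by
    by_contra hcon
    rw [not_lt] at hcon
    have h0 : v (a₁ * z + a₃ * z ^ 2) < 1 := by
      rw [show a₁ * z + a₃ * z ^ 2 = z * (a₁ + a₃ * z) by ring]
      exact map_mul_lt_one v hzv ((v.mem_integer_iff _).1 (add_mem h1 (mul_mem h3 hzm)))
    have h' : v (Vn + a₁ * z + a₃ * z ^ 2) = v Vn := by
      rw [add_assoc]; exact v.map_add_eq_of_lt_left (lt_of_lt_of_le h0 hcon)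
    have hlt : v (z * (1 + a₂ * z + a₄ * z ^ 2 + a₆ * z ^ 3)) < 1 :=
      map_mul_lt_one v hzv ((v.mem_integer_iff _).1 (add_mem (add_mem (add_mem (one_mem _)
        (mul_mem h2 hzm)) (mul_mem h4 (pow_mem hzm 2))) (mul_mem h6 (pow_mem hzm 3))))
    rw [← hnn, map_mul, h'] at hlt
    exact absurd hlt (not_lt.2 (one_le_mul hcon hcon))
  have hVnm : Vn ∈ v.integer := (v.mem_integer_iff _).2 hVnv.le
  have hunit : v (1 - s * z) = 1 := v.map_one_sub_of_lt <| by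
    rw [mul_comm]; exact map_mul_lt_one v hzv ((v.mem_integer_iff _).1 hs)
  have h2m : (2 : F) ∈ v.integer := by exact_mod_cast natCast_mem v.integer 2
  have h3m : (3 : F) ∈ v.integer := by exact_mod_cast natCast_mem v.integer 3
  obtain ⟨p, hp⟩ : ∃ p, p = 2 * r + a₁ * s + a₃ := ⟨_, rfl⟩
  obtain ⟨A, hA⟩ : ∃ A, A = a₄ + 2 * a₂ * s + 3 * s ^ 2 - a₁ * r := ⟨_, rfl⟩
  obtain ⟨B, hB⟩ : ∃ B, B = a₆ + r ^ 2 + a₁ * s * r - a₂ * s ^ 2 - 2 * s ^ 3 := ⟨_, rfl⟩
  have hpm : p ∈ v.integer := hp ▸ add_mem (add_mem (mul_mem h2m hr) (mul_mem h1 hs)) h3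
  have hAm : A ∈ v.integer := hA ▸ sub_mem (add_mem (add_mem h4 (mul_mem (mul_mem h2m h2) hs))
    (mul_mem h3m (pow_mem hs 2))) (mul_mem h1 hr)
  have hBm : B ∈ v.integer := hB ▸ sub_mem (sub_mem (add_mem (add_mem h6 (pow_mem hr 2))
    (mul_mem (mul_mem h1 hs) hr)) (mul_mem h2 (pow_mem hs 2))) (mul_mem h2m (pow_mem hs 3))
  have hd : U - s ≠ 0 := by
    intro h
    rw [sub_eq_zero] at h
    rw [h] at hU
    exact absurd hU (not_lt.2 ((v.mem_integer_iff _).1 hs))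
  have hl' : l * (U - s) = V - r := by rw [hl, div_mul_cancel₀ _ hd]
  have key : (X - s) * (U - s) ^ 2 = -p * V + A * U + B := by
    rw [hX, hp, hA, hB]
    linear_combination (l * (U - s) + (V - r) + a₁ * (U - s)) * hl' + e
  have keyx : (X - s) * (1 - s * z) ^ 2 = -p * Vn + z * (A + B * z) := by
    rw [hVn]
    linear_combination z ^ 2 * key
      + (A * z - (X - s) * (1 + U * z - 2 * s * z)) * hUz
  have hsmall : v (-p * Vn + z * (A + B * z)) < 1 := by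
    refine v.map_add_lt ?_ (map_mul_lt_one v hzv ((v.mem_integer_iff _).1
      (add_mem hAm (mul_mem hBm hzm))))
    rw [neg_mul, v.map_neg, mul_comm]
    exact map_mul_lt_one v hVnv ((v.mem_integer_iff _).1 hpm)
  rw [← keyx, map_mul, map_pow, hunit, one_pow, mul_one] at hsmall
  refine ⟨hsmall, ?_⟩
  obtain ⟨T, hT⟩ : ∃ T, T = l * (X - s) + p := ⟨_, rfl⟩
  have hZ' : Z - r = -T - a₁ * (X - s) := by
    rw [hZ, hT, hp]; linear_combination hl'
  have key2 : T * (U - s) ^ 3 = (A + p * a₁) * (U * V) + (B + p * a₃ + r * p) * V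
      + (p * (-a₂ - 3 * s)) * U ^ 2 + (p * (-a₄ + 3 * s ^ 2) - r * A) * U
      + (p * (-a₆ - s ^ 3) - r * B) := by
    rw [hT]
    linear_combination (U - s) ^ 2 * (X - s) * hl' + (V - r) * key - p * e
  have keyy : T * (1 - s * z) ^ 3 = Vn * ((A + p * a₁) + (B + p * a₃ + r * p) * z)
      + z * ((p * (-a₂ - 3 * s)) + (p * (-a₄ + 3 * s ^ 2) - r * A) * z
        + (p * (-a₆ - s ^ 3) - r * B) * z ^ 2) := by
    rw [hVn]
    linear_combination z ^ 3 * key2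
      - T * ((U * z - s * z) ^ 2 + (U * z - s * z) * (1 - s * z) + (1 - s * z) ^ 2) * hUz
      + ((A + p * a₁) * V * z ^ 2 + (p * (-a₂ - 3 * s)) * z * (U * z + 1)
        + (p * (-a₄ + 3 * s ^ 2) - r * A) * z ^ 2) * hUz
  have hm : ∀ (w c : F), v w < 1 → c ∈ v.integer → v (w * c) < 1 := fun w c hw hc =>
    map_mul_lt_one v hw ((v.mem_integer_iff _).1 hc)
  have hTs : v T < 1 := by
    have h : v (T * (1 - s * z) ^ 3) < 1 := by
      rw [keyy]
      refine v.map_add_lt (hm _ _ hVnv ?_) (hm _ _ hzv ?_) <;>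
      repeat' first | assumption | apply pow_mem | apply neg_mem | apply sub_mem | apply add_mem | apply mul_mem
    rwa [map_mul, map_pow, hunit, one_pow, mul_one] at h
  rw [hZ', sub_eq_add_neg]
  refine v.map_add_lt (by rwa [v.map_neg]) ?_
  rw [v.map_neg, mul_comm]
  exact hm _ _ hsmall h1

end FLTAgent.Isogeny
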