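import Fermat.Agent.Isogeny.Translate
import Fermat.Agent.Isogeny.Limit

/-!
The isogeny of a finite subgroup: `P ↦ Φ(G + P) - Φ(G)` is constant, hence a homomorphism.
-/

set_option autoImplicit false
set_option linter.unusedSectionVars false

open scoped nonZeroDivisors Polynomial.Bivariate WeierstrassCurve.Affine
open Polynomial
open WeierstrassCurve WeierstrassCurve.Affine WeierstrassCurve.Affine.CoordinateRing
open FLTAgent.WeilPairing

namespace FLTAgent.Isogeny

noncomputable section

variable {K : Type*} [Field K] {W : Affine K}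

local notation "F" => W.FunctionField
local notation "ι" => const W

variable [IsAlgClosed K] [W.IsElliptic] [DecidableEq K] [CharZero K]
variable (C : AddSubgroup W.Point) [Fintype C]

lemma veluPsi_add_ne (hY : veluY C = -veluY C - ι W.a₁ * veluX C - ι W.a₃) : False := by
  refine veluPsi_ne_zero C ?_
  rw [← psi_velu, psi, show (velu C).a₁ = W.a₁ from rfl, show (velu C).a₃ = W.a₃ from rfl]
  linear_combination hY

/-- The image of the generic point. -/
theorem nonsingular_velu_gen : ((velu C)⁄F).Nonsingular (veluX C) (veluY C) := by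
  rw [nonsingular_iff, equation_iff]
  simp only [WeierstrassCurve.baseChange, WeierstrassCurve.map_a₁, WeierstrassCurve.map_a₂,
    WeierstrassCurve.map_a₃, WeierstrassCurve.map_a₄, WeierstrassCurve.map_a₆,
    algebraMap_functionField]
  exact ⟨velu_equation C, Or.inr fun h => veluPsi_add_ne C h⟩

/-- The image of the generic point. -/
def veluGen : ((velu C)⁄F).Point := Point.some (veluX C) (veluY C) (nonsingular_velu_gen C)

/-- Constant points of the target. -/
def embV : (velu C).Point →+ ((velu C)⁄F).Point :=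
  Point.map (W' := velu C) (S := K) (Algebra.ofId K F)

lemma embV_some {s r : K} (h : (velu C).Nonsingular s r) :
    ∃ h', embV C (Point.some s r h) = Point.some (ι s) (ι r) h' := by
  rw [← algebraMap_functionField]
  exact ⟨_, rfl⟩

lemma embV_injective : Function.Injective (embV C) := Point.map_injective _

lemma map_embV (φ : F →ₐ[K] F) (S : (velu C).Point) :
    Point.map (W' := velu C) φ (embV C S) = embV C S := by
  rcases S with _ | ⟨x, y, h⟩
  · rfl
  · exact (Point.map_map (W' := velu C) (Algebra.ofId K F) φ (Point.some x y h)).trans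
      (by rw [Subsingleton.elim (φ.comp (Algebra.ofId K F)) (Algebra.ofId K F)]; rfl)

theorem exists_shift (P : W.Point) :
    ∃ S, Point.map (W' := velu C) (translate P) (veluGen C) = veluGen C + embV C S := by
  have hne := veluPsi_ne_zero C
  rw [veluGen, Point.map_some]
  set X₁ := translate P (veluX C) with hX₁
  set Y₁ := translate P (veluY C) with hY₁
  have hΨ : translate P (veluPsi C) = psi (velu C) X₁ Y₁ := by
    rw [← psi_velu, psi, psi, map_add, map_add, map_mul, map_mul, translate_const, translate_const,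
      map_ofNat]
  have hDX : D X₁ = psi (velu C) X₁ Y₁ := by
    rw [hX₁, D_translate, (hasOmega_velu C).1, one_mul, psi_velu, hΨ]
  have e₁ : Y₁ ^ 2 + ι (velu C).a₁ * X₁ * Y₁ + ι (velu C).a₃ * Y₁ = X₁ ^ 3
      + ι (velu C).a₂ * X₁ ^ 2 + ι (velu C).a₄ * X₁ + ι (velu C).a₆ := by
    have := congrArg (translate P) (velu_equation C)
    simpa only [map_add, map_mul, map_pow, translate_const] using this
  have h₁ : HasOmega (velu C) X₁ Y₁ 1 := hasOmega_of_D e₁
    (by rw [← hΨ]; exact (_root_.map_ne_zero _).2 hne) (by rw [one_mul, hDX])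
  by_cases hx : X₁ = veluX C
  · refine ⟨0, ?_⟩
    rw [map_zero, add_zero, Point.some.injEq]
    refine ⟨hx, ?_⟩
    have hp : psi (velu C) X₁ Y₁ = veluPsi C := by
      rw [← hDX, hx, (hasOmega_velu C).1, one_mul, psi_velu]
    rw [← psi_velu, psi, psi, hx] at hp
    refine mul_left_cancel₀ (two_ne_zero' (W := W)) ?_
    linear_combination hp
  · -- the difference has vanishing differential
    obtain ⟨Y₂, hY₂⟩ : ∃ Y₂, Y₂ = -veluY C - ι (velu C).a₁ * veluX C - ι (velu C).a₃ := ⟨_, rfl⟩
    have e₂ : Y₂ ^ 2 + ι (velu C).a₁ * veluX C * Y₂ + ι (velu C).a₃ * Y₂ = veluX C ^ 3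
        + ι (velu C).a₂ * veluX C ^ 2 + ι (velu C).a₄ * veluX C + ι (velu C).a₆ := by
      rw [hY₂]; linear_combination velu_equation C
    have h₂ : HasOmega (velu C) (veluX C) Y₂ (-1) := hY₂ ▸ (hasOmega_velu C).neg
    obtain ⟨l, hl⟩ : ∃ l, l = (Y₁ - Y₂) / (X₁ - veluX C) := ⟨_, rfl⟩
    obtain ⟨X₃, hX₃⟩ : ∃ X₃, X₃ = l ^ 2 + ι (velu C).a₁ * l - ι (velu C).a₂ - X₁ - veluX C :=
      ⟨_, rfl⟩
    have hD := D_addX e₁ e₂ h₁ h₂ hx hl hX₃
    rw [add_neg_cancel, zero_mul] at hD
    obtain ⟨s, hs⟩ := eq_const_of_D_eq_zero hD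
    obtain ⟨Y₃, hY₃⟩ : ∃ Y₃, Y₃ = -(l * (X₃ - X₁) + Y₁) - ι (velu C).a₁ * X₃ - ι (velu C).a₃ :=
      ⟨_, rfl⟩
    have hsum : ∀ h h', ∃ h'', Point.some (W' := (velu C)⁄F) X₁ Y₁ h -
        Point.some (veluX C) (veluY C) h' = Point.some (W' := (velu C)⁄F) X₃ Y₃ h'' := by
      intro h h'
      have hneg : ((velu C)⁄F).negY (veluX C) (veluY C) = Y₂ := by
        simp only [negY, WeierstrassCurve.baseChange, WeierstrassCurve.map_a₁,
          WeierstrassCurve.map_a₃, algebraMap_functionField, hY₂]
      have hsl : ((velu C)⁄F).slope X₁ (veluX C) Y₁ Y₂ = l := by rw [slope_of_X_ne hx, hl]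
      have ha : ((velu C)⁄F).addX X₁ (veluX C) l = X₃ := by
        simp only [addX, WeierstrassCurve.baseChange, WeierstrassCurve.map_a₁,
          WeierstrassCurve.map_a₂, algebraMap_functionField, hX₃]
      have hb : ((velu C)⁄F).addY X₁ (veluX C) Y₁ l = Y₃ := by
        rw [addY, negAddY, negY, ha]
        simp only [WeierstrassCurve.baseChange, WeierstrassCurve.map_a₁,
          WeierstrassCurve.map_a₃, algebraMap_functionField, hY₃]
      have h2 : ((velu C)⁄F).Nonsingular (veluX C) Y₂ := hneg ▸ (nonsingular_neg _ _).2 h'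
      have h3 := nonsingular_add h h2 (fun hh => hx hh.1)
      rw [hsl, ha, hb] at h3
      refine ⟨h3, ?_⟩
      rw [sub_eq_add_neg, Point.neg_some]
      simp only [hneg]
      rw [Point.add_of_X_ne hx]
      simp only [hsl, ha, hb]
    obtain ⟨h3, hsum⟩ := hsum _ (nonsingular_velu_gen C)
    -- the ordinate is a constant too
    have he : Y₃ ^ 2 + ι (velu C).a₁ * X₃ * Y₃ + ι (velu C).a₃ * Y₃ = X₃ ^ 3
        + ι (velu C).a₂ * X₃ ^ 2 + ι (velu C).a₄ * X₃ + ι (velu C).a₆ := by
      have := (equation_iff _ _).1 h3.1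
      simpa only [WeierstrassCurve.baseChange, WeierstrassCurve.map_a₁, WeierstrassCurve.map_a₂,
        WeierstrassCurve.map_a₃, WeierstrassCurve.map_a₄, WeierstrassCurve.map_a₆,
        algebraMap_functionField] using this
    obtain ⟨q, hq⟩ := IsAlgClosed.exists_root (k := K)
      (Polynomial.C 1 * X ^ 2 + Polynomial.C ((velu C).a₁ * s + (velu C).a₃) * X
        + Polynomial.C (-(s ^ 3 + (velu C).a₂ * s ^ 2 + (velu C).a₄ * s + (velu C).a₆)))
      (by rw [Polynomial.degree_quadratic one_ne_zero]; decide)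
    simp only [IsRoot.def, eval_add, eval_mul, eval_pow, eval_X, eval_C] at hq
    have hq' := congrArg ι hq
    simp only [map_add, map_mul, map_pow, map_neg, map_one, map_zero] at hq'
    rw [hs] at he
    have hfac : (Y₃ - ι q) * (Y₃ - ι (-q - ((velu C).a₁ * s + (velu C).a₃))) = 0 := by
      simp only [map_add, map_mul, map_sub, map_neg]
      linear_combination he - hq'
    obtain ⟨r, hr⟩ : ∃ r, Y₃ = ι r := by
      rcases mul_eq_zero.1 hfac with h | h <;> exact ⟨_, sub_eq_zero.1 h⟩
    subst hs hr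
    have hns : (velu C).Nonsingular s r := by
      refine (map_nonsingular (f := algebraMap K F) _ (const_injective W) s r).1 ?_
      rw [algebraMap_functionField]; exact h3
    obtain ⟨h', he'⟩ := embV_some C hns
    refine ⟨Point.some s r hns, ?_⟩
    rw [he', ← hsum, add_comm, sub_add_cancel]

/-- The isogeny on points. -/
def veluFun (P : W.Point) : (velu C).Point := (exists_shift C P).choose

lemma map_translate_veluGen (P : W.Point) :
    Point.map (W' := velu C) (translate P) (veluGen C) = veluGen C + embV C (veluFun C P) :=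
  (exists_shift C P).choose_spec

/-- **The isogeny with kernel `C`.** -/
def veluHom : W.Point →+ (velu C).Point :=
  AddMonoidHom.mk' (veluFun C) fun P Q => by
    apply embV_injective C
    refine add_left_cancel (a := veluGen C) ?_
    rw [← map_translate_veluGen, ← translate_comp, ← Point.map_map, map_translate_veluGen,
      map_add, map_translate_veluGen, map_embV, map_add, add_assoc]

lemma veluHom_eq_zero {T : W.Point} (hT : T ∈ C) : veluHom C T = 0 := by
  apply embV_injective C
  refine add_left_cancel (a := veluGen C) ?_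
  rw [map_zero, add_zero, show veluHom C T = veluFun C T from rfl, ← map_translate_veluGen,
    veluGen, Point.map_some, Point.some.injEq]
  refine ⟨translate_veluX C hT, ?_⟩
  simp only [veluY, map_div₀, map_sub, map_mul, translate_const, translate_veluX C hT,
    translate_veluPsi C hT, map_ofNat]

/-- The abscissa of the image. -/
def evX (P : W.Point) : K :=
  (∑ T : C, ptX (P + (T : W.Point))) - ∑ T : C, ptX (T : W.Point)

/-- `2Y + a₁X + a₃` at the image. -/
def evPsi (P : W.Point) : K := ∑ T : C, ptPsi (P + (T : W.Point))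

/-- The ordinate of the image. -/
def evY (P : W.Point) : K := (evPsi C P - W.a₁ * evX C P - W.a₃) / 2

lemma valAt_xfun_sub {Q : W.Point} (hQ : Q ≠ 0) :
    valAt Q (xfun W - ι (ptX Q)) < 1 ∧
      valAt Q (psi W (xfun W) (yfun W) - ι (ptPsi Q)) < 1 := by
  rcases Q with _ | ⟨s, r, h⟩
  · exact absurd rfl hQ
  have key : ∀ f : F, f = 0 ∨ 0 < ord (0 : W.Point) (translate (Point.some s r h) f) →
      valAt (Point.some s r h) f < 1 := by
    rintro f (rfl | hf)
    · simp
    · have hf0 : f ≠ 0 := by rintro rfl; simp at hf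
      rw [ord_translate, zero_add] at hf
      rw [valAt_eq_exp _ hf0, ← WithZero.exp_zero, WithZero.exp_lt_exp]
      omega
  obtain ⟨hx, hy⟩ := translate_xy_sub h
  have hx' := key (xfun W - ι s) (by
    rw [map_sub, translate_const]
    rcases hx with h0 | h0
    · left
      rw [← translate_neg_translate (Point.some s r h) (xfun W - ι s), map_sub _ (xfun W),
        translate_const, h0, map_zero]
    · exact Or.inr h0)
  have hy' := key (yfun W - ι r) (by
    rw [map_sub, translate_const]
    rcases hy with h0 | h0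
    · left
      rw [← translate_neg_translate (Point.some s r h) (yfun W - ι r), map_sub _ (yfun W),
        translate_const, h0, map_zero]
    · exact Or.inr h0)
  refine ⟨hx', ?_⟩
  have e : psi W (xfun W) (yfun W) - ι (ptPsi (Point.some s r h)) =
      (yfun W - ι r) * ι 2 + (xfun W - ι s) * ι W.a₁ := by
    simp only [psi, ptPsi, map_add, map_mul, map_ofNat]; ring
  rw [e]
  exact Valuation.map_add_lt _ (map_mul_lt_one _ hy' (valAt_const_le _ _))
    (map_mul_lt_one _ hx' (valAt_const_le _ _))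

lemma valAt_velu_sub {P : W.Point} (hP : P ∉ C) :
    valAt P (veluX C - ι (evX C P)) < 1 ∧ valAt P (veluY C - ι (evY C P)) < 1 := by
  have hne : ∀ T : C, P + (T : W.Point) ≠ 0 := fun T h => hP <| by
    rw [eq_neg_of_add_eq_zero_left h]; exact neg_mem T.2
  have hx : valAt P (veluX C - ι (evX C P)) < 1 := by
    rw [veluX, evX, map_sub ι, map_sum ι, map_sum ι, sub_sub_sub_cancel_right, ← Finset.sum_sub_distrib]
    refine Valuation.map_sum_lt _ one_ne_zero fun T _ => ?_
    rw [← translate_const (T : W.Point) (ptX (P + (T : W.Point))), ← map_sub, valAt_translate]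
    exact (valAt_xfun_sub (hne T)).1
  refine ⟨hx, ?_⟩
  have hp : valAt P (veluPsi C - ι (evPsi C P)) < 1 := by
    rw [veluPsi, evPsi, map_sum ι, ← Finset.sum_sub_distrib]
    refine Valuation.map_sum_lt _ one_ne_zero fun T _ => ?_
    rw [← translate_const (T : W.Point) (ptPsi (P + (T : W.Point))), ← map_sub, valAt_translate]
    exact (valAt_xfun_sub (hne T)).2
  have e : veluY C - ι (evY C P) = (veluPsi C - ι (evPsi C P)) * ι (1 / 2)
      + (veluX C - ι (evX C P)) * ι (-W.a₁ / 2) := by
    simp only [veluY, evY, map_sub, map_mul, map_div₀, map_one, map_neg, map_ofNat]; ring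
  rw [e]
  exact Valuation.map_add_lt _ (map_mul_lt_one _ hp (valAt_const_le _ _))
    (map_mul_lt_one _ hx (valAt_const_le _ _))

lemma one_lt_valInfty_veluX : 1 < valInfty W (veluX C) := by
  obtain ⟨e₁, he₁, e₂, -, hX, -⟩ := exists_expansion_velu C
  have hz := valInfty_xfun_inv_lt W
  have hx : 1 < valInfty W (xfun W) := by
    rw [map_inv₀] at hz
    have hpos : valInfty W (xfun W) ≠ 0 := by
      rw [Valuation.ne_zero_iff]
      have hx := ord_xfun (W := W); intro h; rw [h] at hx; simp at hx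
    exact (inv_lt_one₀ (zero_lt_iff.2 hpos)).1 hz
  have hzm : (xfun W)⁻¹ ∈ (valInfty W).integer := (Valuation.mem_integer_iff _ _).2 hz.le
  have h : valInfty W (ι (veluT C) * (xfun W)⁻¹ + ι (veluW C) * (xfun W)⁻¹ ^ 2
      + (xfun W)⁻¹ ^ 3 * e₁) ≤ 1 :=
    (Valuation.mem_integer_iff _ _).1 (add_mem (add_mem
      (mul_mem (const_mem (0 : W.Point) _) hzm) (mul_mem (const_mem (0 : W.Point) _) (pow_mem hzm 2)))
      (mul_mem (pow_mem hzm 3) he₁))
  rw [hX, add_assoc, add_assoc, ← add_assoc (ι (veluT C) * (xfun W)⁻¹),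
    Valuation.map_add_eq_of_lt_left _ (lt_of_le_of_lt h hx)]
  exact hx

theorem veluHom_of_notMem {P : W.Point} (hP : P ∉ C) :
    ∃ h, veluHom C P = Point.some (evX C P) (evY C P) h := by
  obtain ⟨hx, hy⟩ := valAt_velu_sub C hP
  have hbig := one_lt_valInfty_veluX C
  have hP' : ∀ f : F, valInfty W (translate P f) = valAt P f := fun f => by
    rw [show valInfty W = valAt (0 : W.Point) from rfl, valAt_translate, zero_add]
  have hg := map_translate_veluGen C P
  rw [show veluFun C P = veluHom C P from rfl] at hg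
  rcases hS : veluHom C P with _ | ⟨s, r, hns⟩
  · exfalso
    rw [hS, ← Point.zero_def, map_zero, add_zero, veluGen, Point.map_some, Point.some.injEq] at hg
    rw [← hg.1, hP', ← not_le] at hbig
    apply hbig
    rw [show veluX C = (veluX C - ι (evX C P)) + ι (evX C P) by ring]
    exact Valuation.map_add_le _ hx.le (valAt_const_le _ _)
  obtain ⟨h', he⟩ := embV_some C hns
  have hxne : veluX C ≠ ι s := by
    intro h; rw [h] at hbig; exact absurd hbig (not_lt.2 (valAt_const_le (0 : W.Point) s))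
  rw [hS, he, veluGen, Point.map_some, Point.add_of_X_ne hxne, Point.some.injEq] at hg
  obtain ⟨hX, hY⟩ := hg
  rw [slope_of_X_ne hxne] at hX hY
  simp only [addX, addY, negAddY, negY, WeierstrassCurve.baseChange, WeierstrassCurve.map_a₁,
    WeierstrassCurve.map_a₂, WeierstrassCurve.map_a₃, algebraMap_functionField] at hX hY
  obtain ⟨lx, ly⟩ := chord_limit (valInfty W) (const_mem (0 : W.Point) (velu C).a₁)
    (const_mem (0 : W.Point) (velu C).a₂) (const_mem (0 : W.Point) (velu C).a₃)
    (const_mem (0 : W.Point) (velu C).a₄) (const_mem (0 : W.Point) (velu C).a₆)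
    (const_mem (0 : W.Point) s) (const_mem (0 : W.Point) r) hbig (velu_equation C) rfl hX
    (Z := translate P (veluY C)) (by rw [hY, hX])
  have ev : ∀ (f : F) (a b : K), valInfty W (translate P f - ι a) < 1 →
      valAt P (f - ι b) < 1 → a = b := by
    intro f a b h1 h2
    rw [← hP', map_sub, translate_const] at h2
    refine sub_eq_zero.1 (eq_zero_of_valAt_const_lt_one (0 : W.Point) ?_)
    rw [show ι (a - b) = (translate P f - ι b) - (translate P f - ι a) by rw [map_sub]; ring]
    exact lt_of_le_of_lt (Valuation.map_sub _ _ _) (max_lt h2 h1)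
  obtain rfl := ev _ _ _ lx hx
  obtain rfl := ev _ _ _ ly hy
  exact ⟨hns, rfl⟩

theorem veluHom_ker : (veluHom C).ker = C := by
  ext P
  refine ⟨fun h => ?_, fun h => veluHom_eq_zero C h⟩
  by_contra hP
  obtain ⟨h', he⟩ := veluHom_of_notMem C hP
  rw [AddMonoidHom.mem_ker, he] at h
  exact Point.some_ne_zero h' h

theorem veluHom_surjective : Function.Surjective (veluHom C) := by
  rintro (_ | ⟨s, r, h⟩)
  · exact ⟨0, map_zero _⟩
  have hbig := one_lt_valInfty_veluX C
  have hfbig : 1 < valInfty W (veluX C - ι s) := by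
    rw [Valuation.map_sub_eq_of_lt_left _ (show valInfty W (ι s) < valInfty W (veluX C) from
      lt_of_le_of_lt (valAt_const_le (0 : W.Point) s) hbig)]
    exact hbig
  obtain ⟨P, hP, hlt⟩ : ∃ P : W.Point, P ∉ C ∧ valAt P (veluX C - ι s) < 1 := by
    by_contra hcon
    push Not at hcon
    have hf0 : veluX C - ι s ≠ 0 := fun h0 => by
      rw [h0, map_zero] at hfbig; exact not_lt.2 zero_le_one hfbig
    have hall : ∀ P : W.Point, 1 ≤ valAt P (veluX C - ι s) := by
      intro P
      by_cases hP : P ∈ C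
      · have h0 := valAt_translate (0 : W.Point) P (veluX C - ι s)
        rw [zero_add, map_sub, translate_veluX C hP, translate_const] at h0
        rw [← h0]; exact hfbig.le
      · exact hcon P hP
    obtain ⟨c, hc⟩ := exists_const_of_ord_nonneg (f := (veluX C - ι s)⁻¹) fun P => by
      refine (le_ord_iff P (inv_ne_zero hf0) 0).2 ?_
      simp only [neg_zero, WithZero.exp_zero, map_inv₀]
      exact inv_le_one_of_one_le₀ (hall P)
    have h1 : valInfty W (veluX C - ι s) ≤ 1 := by
      rw [← inv_inv (veluX C - ι s), hc, ← map_inv₀]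
      exact valAt_const_le (0 : W.Point) _
    exact absurd hfbig (not_lt.2 h1)
  obtain ⟨hx, -⟩ := valAt_velu_sub C hP
  have hs : evX C P = s := by
    refine sub_eq_zero.1 (eq_zero_of_valAt_const_lt_one P ?_)
    rw [show ι (evX C P - s) = (veluX C - ι s) - (veluX C - ι (evX C P)) by rw [map_sub]; ring]
    exact lt_of_le_of_lt (Valuation.map_sub _ _ _) (max_lt hlt hx)
  obtain ⟨h', he⟩ := veluHom_of_notMem C hP
  subst hs
  rcases Point.X_eq_iff (h₁ := h') (h₂ := h) |>.1 rfl with h2 | h2
  · exact ⟨P, by rw [he, h2]⟩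
  · exact ⟨-P, by rw [map_neg, he, h2, neg_neg]⟩

theorem two_nsmul_eq_zero_of_odd (hodd : Odd (Nat.card C)) {P : W.Point} (hP : P ∈ C)
    (h2 : 2 • P = 0) : P = 0 := by
  obtain ⟨m, hm⟩ := hodd
  have : Nat.card C • (⟨P, hP⟩ : C) = 0 := card_nsmul_eq_zero'
  have h := congrArg Subtype.val this
  simp only [AddSubgroup.coe_nsmul, ZeroMemClass.coe_zero] at h
  rwa [hm, add_nsmul, mul_comm, mul_nsmul', h2, nsmul_zero, zero_add, one_nsmul] at h

theorem velu_isElliptic (hodd : Odd (Nat.card C)) : (velu C).IsElliptic := by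
  have hd : W.twoTorsionPolynomial.discr ≠ 0 := by
    rw [twoTorsionPolynomial_discr]
    exact mul_ne_zero (by norm_num) W.isUnit_Δ.ne_zero
  have ha : W.twoTorsionPolynomial.a ≠ 0 := by simp [twoTorsionPolynomial]
  have hsp : (W.twoTorsionPolynomial.toPoly.map (RingHom.id K)).Splits := IsAlgClosed.splits _
  obtain ⟨e₁, e₂, e₃, h3⟩ := (Cubic.splits_iff_roots_eq_three ha).1 hsp
  have hdist := (Cubic.discr_ne_zero_iff_roots_ne ha h3).1 hd
  have hroot : ∀ e ∈ ({e₁, e₂, e₃} : Multiset K), W.twoTorsionPolynomial.toPoly.IsRoot e := by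
    intro e he
    rw [← h3, Cubic.map_roots, Polynomial.map_id] at he
    exact (Polynomial.mem_roots'.1 he).2
  have hpt : ∀ e, W.twoTorsionPolynomial.toPoly.IsRoot e →
      ∃ h, 2 • (Point.some (W' := W) e (-(W.a₁ * e + W.a₃) / 2) h) = 0 := by
    intro e he
    simp [twoTorsionPolynomial, Cubic.toPoly, WeierstrassCurve.b₂, WeierstrassCurve.b₄,
      WeierstrassCurve.b₆] at he
    have h : W.Nonsingular e (-(W.a₁ * e + W.a₃) / 2) := equation_iff_nonsingular.1 <| by
      rw [equation_iff]; field_simp; linear_combination -he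
    refine ⟨h, ?_⟩
    rw [two_nsmul]
    exact Point.add_self_of_Y_eq (by rw [negY]; field_simp; ring)
  have himg : ∀ e, W.twoTorsionPolynomial.toPoly.IsRoot e →
      ∃ P, P ∉ C ∧ 2 • P = 0 ∧ ptX P = e ∧ (velu C).twoTorsionPolynomial.toPoly.IsRoot (evX C P)
        ∧ evPsi C P = 0 := by
    intro e he
    obtain ⟨h, h2⟩ := hpt e he
    have hP : Point.some e _ h ∉ C := fun hmem =>
      Point.some_ne_zero h (two_nsmul_eq_zero_of_odd C hodd hmem h2)
    refine ⟨_, hP, h2, rfl, ?_⟩
    obtain ⟨h', he'⟩ := veluHom_of_notMem C hP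
    have h0 : veluHom C (Point.some e _ h) = -veluHom C (Point.some e _ h) := by
      refine eq_neg_of_add_eq_zero_left ?_
      rw [← map_add, ← two_nsmul, h2, map_zero]
    rw [he', Point.neg_some, Point.some.injEq, negY, show (velu C).a₁ = W.a₁ from rfl,
      show (velu C).a₃ = W.a₃ from rfl] at h0
    have hy := h0.2
    clear he' h0 h2 hP
    revert hy h'
    generalize Point.some e _ h = Q
    intro h' hy
    have hpsi : evPsi C Q = 0 := by
      rw [evY] at hy; field_simp at hy; linear_combination hy / 2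
    refine ⟨?_, hpsi⟩
    have heq := (equation_iff _ _).1 h'.1
    rw [show (velu C).a₁ = W.a₁ from rfl, show (velu C).a₃ = W.a₃ from rfl, evY, hpsi] at heq
    simp [twoTorsionPolynomial, Cubic.toPoly, WeierstrassCurve.b₂, WeierstrassCurve.b₄,
      WeierstrassCurve.b₆, show (velu C).a₁ = W.a₁ from rfl, show (velu C).a₃ = W.a₃ from rfl]
    field_simp at heq
    linear_combination -heq
  obtain ⟨P₁, hP₁, t₁, x₁, r₁, s₁⟩ := himg e₁ (hroot e₁ (by simp))
  obtain ⟨P₂, hP₂, t₂, x₂, r₂, s₂⟩ := himg e₂ (hroot e₂ (by simp))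
  obtain ⟨P₃, hP₃, t₃, x₃, r₃, s₃⟩ := himg e₃ (hroot e₃ (by simp))
  have hinj : ∀ P Q, P ∉ C → Q ∉ C → 2 • P = 0 → 2 • Q = 0 → evPsi C P = 0 → evPsi C Q = 0 →
      evX C P = evX C Q → P = Q := by
    intro P Q hP hQ hP2 hQ2 hPp hQp hx
    obtain ⟨_, h1⟩ := veluHom_of_notMem C hP
    obtain ⟨_, h2⟩ := veluHom_of_notMem C hQ
    have hy : evY C P = evY C Q := by rw [evY, evY, hPp, hQp, hx]
    have : veluHom C (P - Q) = 0 := by
      rw [map_sub, h1, h2, sub_eq_zero, Point.some.injEq]; exact ⟨hx, hy⟩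
    rw [← AddMonoidHom.mem_ker, veluHom_ker] at this
    exact sub_eq_zero.1 (two_nsmul_eq_zero_of_odd C hodd this (by rw [nsmul_sub, hP2, hQ2, sub_zero]))
  refine ⟨isUnit_iff_ne_zero.2 fun hΔ => ?_⟩
  have hd' : (velu C).twoTorsionPolynomial.discr = 0 := by
    rw [twoTorsionPolynomial_discr, hΔ, mul_zero]
  have ha' : (velu C).twoTorsionPolynomial.a ≠ 0 := by simp [twoTorsionPolynomial]
  have hcard := Cubic.card_roots_le (P := (velu C).twoTorsionPolynomial)
  have hne := Cubic.ne_zero_of_a_ne_zero (P := (velu C).twoTorsionPolynomial) ha'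
  obtain ⟨f₁, f₂, f₃, g3⟩ := (Cubic.splits_iff_roots_eq_three (φ := RingHom.id K) ha').1
    (IsAlgClosed.splits _)
  have hmem : ∀ f, (velu C).twoTorsionPolynomial.toPoly.IsRoot f →
      f = f₁ ∨ f = f₂ ∨ f = f₃ := by
    intro f hf
    have : f ∈ (Cubic.map (RingHom.id K) (velu C).twoTorsionPolynomial).roots := by
      rw [Cubic.map_roots, Polynomial.map_id]; exact Polynomial.mem_roots'.2 ⟨hne, hf⟩
    rw [g3] at this
    simpa using this
  have hsame : ¬ (f₁ ≠ f₂ ∧ f₁ ≠ f₃ ∧ f₂ ≠ f₃) := fun h =>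
    (Cubic.discr_ne_zero_iff_roots_ne ha' g3).2 h hd'
  have n12 : evX C P₁ ≠ evX C P₂ := fun h =>
    hdist.1 (by rw [← x₁, ← x₂, hinj _ _ hP₁ hP₂ t₁ t₂ s₁ s₂ h])
  have n13 : evX C P₁ ≠ evX C P₃ := fun h =>
    hdist.2.1 (by rw [← x₁, ← x₃, hinj _ _ hP₁ hP₃ t₁ t₃ s₁ s₃ h])
  have n23 : evX C P₂ ≠ evX C P₃ := fun h =>
    hdist.2.2 (by rw [← x₂, ← x₃, hinj _ _ hP₂ hP₃ t₂ t₃ s₂ s₃ h])
  have m₁ := hmem _ r₁
  have m₂ := hmem _ r₂
  have m₃ := hmem _ r₃
  grind

end

end FLTAgent.Isogeny
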