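import Mathlib.Tactic.LinearCombination
import Mathlib.Tactic.FieldSimp
import Mathlib.Tactic.Ring
import Mathlib.Algebra.Field.Basic
import Mathlib.Tactic.NormNum

/-!
Two algebraic identities behind Vélu's formulas: translation by `T` plus translation by `-T`.
-/

set_option autoImplicit false

namespace FLTAgent.Isogeny

variable {F : Type*} [Field F] {a₁ a₂ a₃ a₄ a₆ x y s r : F}

theorem pair_x (e : y ^ 2 + a₁ * x * y + a₃ * y = x ^ 3 + a₂ * x ^ 2 + a₄ * x + a₆)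
    (eT : r ^ 2 + a₁ * s * r + a₃ * r = s ^ 3 + a₂ * s ^ 2 + a₄ * s + a₆) (hd : x - s ≠ 0) :
    (((y - r) / (x - s)) ^ 2 + a₁ * ((y - r) / (x - s)) - a₂ - x - s) +
      (((y - (-r - a₁ * s - a₃)) / (x - s)) ^ 2 + a₁ * ((y - (-r - a₁ * s - a₃)) / (x - s))
        - a₂ - x - s) - 2 * s
    = (6 * s ^ 2 + (a₁ ^ 2 + 4 * a₂) * s + (2 * a₄ + a₁ * a₃)) / (x - s) +
      (2 * r + a₁ * s + a₃) ^ 2 / (x - s) ^ 2 := by
  field_simp
  linear_combination 2 * e - 2 * eT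

theorem pair_psi (e : y ^ 2 + a₁ * x * y + a₃ * y = x ^ 3 + a₂ * x ^ 2 + a₄ * x + a₆)
    (eT : r ^ 2 + a₁ * s * r + a₃ * r = s ^ 3 + a₂ * s ^ 2 + a₄ * s + a₆) (hd : x - s ≠ 0)
    {l l' X X' : F} (hl : l = (y - r) / (x - s)) (hl' : l' = (y - (-r - a₁ * s - a₃)) / (x - s))
    (hX : X = l ^ 2 + a₁ * l - a₂ - x - s) (hX' : X' = l' ^ 2 + a₁ * l' - a₂ - x - s) :
    (2 * (-(l * (X - x) + y) - a₁ * X - a₃) + a₁ * X + a₃) +
      (2 * (-(l' * (X' - x) + y) - a₁ * X' - a₃) + a₁ * X' + a₃)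
    = -(2 * y + a₁ * x + a₃) *
      ((6 * s ^ 2 + (a₁ ^ 2 + 4 * a₂) * s + (2 * a₄ + a₁ * a₃)) / (x - s) ^ 2 +
        2 * (2 * r + a₁ * s + a₃) ^ 2 / (x - s) ^ 3) := by
  rw [hX, hX', hl, hl']
  field_simp
  linear_combination (-2 * (2 * y + a₁ * x + a₃)) * e + (2 * (2 * y + a₁ * x + a₃)) * eT

end FLTAgent.Isogeny
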