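import Fermat.Agent.Isogeny.Hom
import Fermat.Prelude.Def_FLTPrelim_GaloisRep
import Mathlib.FieldTheory.Galois.Infinite
import Mathlib.FieldTheory.Perfect
import Mathlib.Algebra.Algebra.Rat

/-!
The quotient of an elliptic curve over `k` by a finite Galois-stable subgroup of odd order.
-/

set_option autoImplicit false
set_option linter.unusedSectionVars false

open scoped WeierstrassCurve.Affine
open WeierstrassCurve WeierstrassCurve.Affine WeierstrassCurve.Affine.Point

namespace FLTAgent.Isogeny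

noncomputable section

section Galois

variable {k K : Type*} [Field k] [Field K] [DecidableEq K] [Algebra k K] {W : WeierstrassCurve k}

lemma ptX_smul (σ : K ≃ₐ[k] K) (P : (W⁄K).Point) : ptX (σ • P) = σ (ptX P) := by
  cases P with
  | zero => exact (map_zero σ).symm
  | some x y h => rfl

lemma ptPsi_smul (σ : K ≃ₐ[k] K) (P : (W⁄K).Point) : ptPsi (σ • P) = σ (ptPsi P) := by
  cases P with
  | zero => exact (map_zero σ).symm
  | some x y h =>
    show 2 * σ y + (W⁄K).a₁ * σ x + (W⁄K).a₃ = σ (2 * y + (W⁄K).a₁ * x + (W⁄K).a₃)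
    simp [WeierstrassCurve.baseChange, map_ofNat]

lemma veluV_smul (σ : K ≃ₐ[k] K) (P : (W⁄K).Point) : veluV (σ • P) = σ (veluV P) := by
  cases P with
  | zero => exact (map_zero σ).symm
  | some x y h =>
    show 6 * σ x ^ 2 + ((W⁄K).a₁ ^ 2 + 4 * (W⁄K).a₂) * σ x +
      (2 * (W⁄K).a₄ + (W⁄K).a₁ * (W⁄K).a₃) = σ (6 * x ^ 2 + ((W⁄K).a₁ ^ 2 + 4 * (W⁄K).a₂) * x +
      (2 * (W⁄K).a₄ + (W⁄K).a₁ * (W⁄K).a₃))
    simp [WeierstrassCurve.baseChange, map_ofNat]

variable {C : AddSubgroup (W⁄K).Point} [Fintype C]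
  (hC : ∀ (σ : K ≃ₐ[k] K), ∀ P ∈ C, σ • P ∈ C)

/-- The permutation of `C` given by an automorphism. -/
def permC (σ : K ≃ₐ[k] K) : C ≃ C where
  toFun T := ⟨σ • (T : (W⁄K).Point), hC σ _ T.2⟩
  invFun T := ⟨σ⁻¹ • (T : (W⁄K).Point), hC σ⁻¹ _ T.2⟩
  left_inv T := Subtype.ext (inv_smul_smul σ _)
  right_inv T := Subtype.ext (smul_inv_smul σ _)

include hC in
lemma map_veluT (σ : K ≃ₐ[k] K) : σ (veluT C) = veluT C := by
  simp only [veluT, map_div₀, map_sum, map_ofNat, ← veluV_smul]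
  exact congrArg (· / 2) (Equiv.sum_comp (permC hC σ) fun T : C => veluV (T : (W⁄K).Point))

include hC in
lemma map_veluW (σ : K ≃ₐ[k] K) : σ (veluW C) = veluW C := by
  simp only [veluW, map_div₀, map_sum, map_add, map_mul, map_pow, map_ofNat, ← veluV_smul,
    ← ptX_smul, ← ptPsi_smul]
  exact congrArg (· / 2) (Equiv.sum_comp (permC hC σ) fun T : C =>
    veluV (T : (W⁄K).Point) * ptX (T : (W⁄K).Point) + ptPsi (T : (W⁄K).Point) ^ 2)

include hC in
lemma map_evX (σ : K ≃ₐ[k] K) (P : (W⁄K).Point) : σ (evX C P) = evX C (σ • P) := by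
  simp only [evX, map_sub, map_sum, ← ptX_smul, smul_add]
  exact congrArg₂ (· - ·)
    (Equiv.sum_comp (permC hC σ) fun T : C => ptX (σ • P + (T : (W⁄K).Point)))
    (Equiv.sum_comp (permC hC σ) fun T : C => ptX (T : (W⁄K).Point))

include hC in
lemma map_evPsi (σ : K ≃ₐ[k] K) (P : (W⁄K).Point) : σ (evPsi C P) = evPsi C (σ • P) := by
  simp only [evPsi, map_sum, ← ptPsi_smul, smul_add]
  exact Equiv.sum_comp (permC hC σ) fun T : C => ptPsi (σ • P + (T : (W⁄K).Point))

include hC in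
lemma map_evY (σ : K ≃ₐ[k] K) (P : (W⁄K).Point) : σ (evY C P) = evY C (σ • P) := by
  simp only [evY, map_div₀, map_sub, map_mul, map_evX hC, map_evPsi hC, map_ofNat,
    WeierstrassCurve.baseChange, WeierstrassCurve.map_a₁, WeierstrassCurve.map_a₃,
    AlgEquiv.commutes]

variable [IsAlgClosed K] [(W⁄K).IsElliptic] [CharZero K]

/-- Transfer along an equation of base changed curves. -/
theorem exists_equivariant_hom (W' : WeierstrassCurve k) (hW' : W'⁄K = velu C) :
    ∃ φ : (W⁄K).Point →+ (W'⁄K).Point, φ.ker = C ∧ Function.Surjective φ ∧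
      (∀ P ∉ C, ∃ h, φ P = Point.some (evX C P) (evY C P) h) := by
  rw [hW']
  exact ⟨veluHom C, veluHom_ker C, veluHom_surjective C, fun P hP => veluHom_of_notMem C hP⟩

include hC in
theorem equivariant_of_formula {W' : WeierstrassCurve k} (φ : (W⁄K).Point →+ (W'⁄K).Point)
    (hker : φ.ker = C) (hval : ∀ P ∉ C, ∃ h, φ P = Point.some (evX C P) (evY C P) h)
    (σ : K ≃ₐ[k] K) (P : (W⁄K).Point) : φ (σ • P) = σ • φ P := by
  by_cases hP : P ∈ C
  · have h1 : φ P = 0 := by rwa [← AddMonoidHom.mem_ker, hker]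
    have h2 : φ (σ • P) = 0 := by rw [← AddMonoidHom.mem_ker, hker]; exact hC σ P hP
    rw [h1, h2, smul_zero]
  · have hσP : σ • P ∉ C := fun h => hP (by simpa using hC σ⁻¹ _ h)
    obtain ⟨h1, e1⟩ := hval P hP
    obtain ⟨h2, e2⟩ := hval _ hσP
    rw [e1, e2]
    refine Eq.trans ?_ (Point.map_some σ.toAlgHom h1).symm
    rw [Point.some.injEq]
    exact ⟨(map_evX hC σ P).symm, (map_evY hC σ P).symm⟩

end Galois

variable {k K : Type*} [Field k] [CharZero k] [Field K] [IsAlgClosed K] [DecidableEq K]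
  [Algebra k K] [Algebra.IsAlgebraic k K]

/-- **Quotient by a finite Galois-stable subgroup of odd order.** -/
theorem exists_quotient (W : WeierstrassCurve k) [W.IsElliptic] (C : AddSubgroup (W⁄K).Point)
    [Finite C] (hodd : Odd (Nat.card C))
    (hC : ∀ (σ : K ≃ₐ[k] K), ∀ P ∈ C, σ • P ∈ C) :
    ∃ (W' : WeierstrassCurve k) (_ : W'.IsElliptic) (φ : (W⁄K).Point →+ (W'⁄K).Point),
      φ.ker = C ∧ Function.Surjective φ ∧
        ∀ (σ : K ≃ₐ[k] K) (P : (W⁄K).Point), φ (σ • P) = σ • φ P := by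
  have : Fintype C := Fintype.ofFinite C
  have : CharZero K := charZero_of_injective_algebraMap (algebraMap k K).injective
  have : (W⁄K).IsElliptic := inferInstanceAs (W.map (algebraMap k K)).IsElliptic
  have : IsAlgClosure k K := ⟨inferInstance, inferInstance⟩
  have : Normal k K := IsAlgClosure.normal k K
  have : IsGalois k K := ⟨⟩
  obtain ⟨t, ht⟩ := (InfiniteGalois.mem_range_algebraMap_iff_fixed (k := k) (veluT C)).2
    fun σ => map_veluT hC σ
  obtain ⟨w, hw⟩ := (InfiniteGalois.mem_range_algebraMap_iff_fixed (k := k) (veluW C)).2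
    fun σ => map_veluW hC σ
  obtain ⟨W', hW'⟩ : ∃ W' : WeierstrassCurve k, W'⁄K = velu C := by
    refine ⟨⟨W.a₁, W.a₂, W.a₃, W.a₄ - 5 * t, W.a₆ - W.b₂ * t - 7 * w⟩, ?_⟩
    ext <;> simp [velu, WeierstrassCurve.baseChange, ← ht, ← hw, WeierstrassCurve.b₂, map_ofNat]
  have hell : W'.IsElliptic := by
    refine ⟨isUnit_iff_ne_zero.2 fun h => (velu_isElliptic C hodd).isUnit.ne_zero ?_⟩
    rw [← hW']
    show (W'.map (algebraMap k K)).Δ = 0
    rw [map_Δ, h, _root_.map_zero]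
  obtain ⟨φ, hker, hsurj, hval⟩ := exists_equivariant_hom W' hW'
  exact ⟨W', hell, φ, hker, hsurj, fun σ P => equivariant_of_formula hC φ hker hval σ P⟩

end

end FLTAgent.Isogeny
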