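import Mathlib.Algebra.Field.Basic
import Mathlib.Algebra.BigOperators.Field
import Mathlib.RingTheory.Valuation.Integers
import Mathlib.Tactic.LinearCombination
import Mathlib.Tactic.FieldSimp
import Mathlib.Tactic.Ring

/-!
Expansion of Vélu's functions at infinity, inside the valuation ring at infinity.
-/

set_option autoImplicit false

namespace FLTAgent.Isogeny

variable {F : Type*} [Field F] {Γ₀ : Type*} [LinearOrderedCommGroupWithZero Γ₀]
  (v : Valuation F Γ₀)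

theorem inv_one_sub_mem {a : F} (ha : v a < 1) : (1 - a)⁻¹ ∈ v.integer := by
  rw [Valuation.mem_integer_iff, map_inv₀, v.map_one_sub_of_lt ha, inv_one]

/-- `∑ (α/(x-r) + β/(x-r)²)` and `∑ (α/(x-r)² + 2β/(x-r)³)` expanded in `z = 1/x`. -/
theorem exists_expansion {ι : Type*} (s : Finset ι) {x : F} (hz : v x⁻¹ < 1) (hx : x ≠ 0)
    (α β r : ι → F) (hα : ∀ i, α i ∈ v.integer) (hβ : ∀ i, β i ∈ v.integer)
    (hr : ∀ i, r i ∈ v.integer) :
    ∃ E₁ ∈ v.integer, ∃ E₂ ∈ v.integer,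
      (∑ i ∈ s, (α i / (x - r i) + β i / (x - r i) ^ 2)) =
        (∑ i ∈ s, α i) * x⁻¹ + (∑ i ∈ s, (α i * r i + β i)) * x⁻¹ ^ 2 + x⁻¹ ^ 3 * E₁ ∧
      (∑ i ∈ s, (α i / (x - r i) ^ 2 + 2 * β i / (x - r i) ^ 3)) =
        (∑ i ∈ s, α i) * x⁻¹ ^ 2 + 2 * (∑ i ∈ s, (α i * r i + β i)) * x⁻¹ ^ 3
          + x⁻¹ ^ 4 * E₂ := by
  set z := x⁻¹ with hzd
  have hzm : z ∈ v.integer := (v.mem_integer_iff _).2 hz.le
  set e : ι → F := fun i => (1 - r i * z)⁻¹ with he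
  have hrz : ∀ i, v (r i * z) < 1 := fun i => by
    rw [map_mul]
    exact lt_of_le_of_lt (mul_le_of_le_one_left' ((v.mem_integer_iff _).1 (hr i))) hz
  have hem : ∀ i, e i ∈ v.integer := fun i => inv_one_sub_mem v (hrz i)
  have hne : ∀ i, 1 - r i * z ≠ 0 := fun i h => by
    have := v.map_one_sub_of_lt (hrz i)
    rw [h, map_zero] at this
    exact zero_ne_one this
  have hd : ∀ i, (x - r i)⁻¹ = z * e i := fun i => by
    rw [he, hzd]
    simp only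
    rw [← mul_inv, mul_sub, mul_one, mul_comm (r i) x⁻¹, ← mul_assoc, mul_inv_cancel₀ hx, one_mul]
  have hei : ∀ i, e i = 1 + r i * z * e i := fun i => by
    have := mul_inv_cancel₀ (hne i)
    rw [he]
    linear_combination this
  refine ⟨∑ i ∈ s, (α i * r i ^ 2 * e i + β i * r i * e i * (1 + e i)), ?_,
    ∑ i ∈ s, (α i * (2 * r i ^ 2 * e i + (r i + r i ^ 2 * z * e i) ^ 2)
      + 2 * β i * r i * e i * (1 + e i + e i ^ 2)), ?_, ?_, ?_⟩
  · exact Subring.sum_mem _ fun i _ => add_mem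
      (mul_mem (mul_mem (hα i) (pow_mem (hr i) 2)) (hem i))
      (mul_mem (mul_mem (mul_mem (hβ i) (hr i)) (hem i)) (add_mem (one_mem _) (hem i)))
  · have h2 : (2 : F) ∈ v.integer := by
      rw [show (2 : F) = 1 + 1 by norm_num]; exact add_mem (one_mem _) (one_mem _)
    exact Subring.sum_mem _ fun i _ => (add_mem
      (mul_mem (hα i) (add_mem (mul_mem (mul_mem h2 (pow_mem (hr i) 2)) (hem i))
        (pow_mem (add_mem (hr i) (mul_mem (mul_mem (pow_mem (hr i) 2) hzm) (hem i))) 2)))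
      (mul_mem (mul_mem (mul_mem (mul_mem h2 (hβ i)) (hr i)) (hem i))
        (add_mem (add_mem (one_mem _) (hem i)) (pow_mem (hem i) 2))))
  · simp only [Finset.sum_mul, Finset.mul_sum, ← Finset.sum_add_distrib]
    refine Finset.sum_congr rfl fun i _ => ?_
    rw [div_eq_mul_inv, div_eq_mul_inv, ← inv_pow, hd]
    linear_combination (α i * z + α i * r i * z ^ 2 + β i * z ^ 2 * (e i + 1)) * hei i
  · simp only [Finset.sum_mul, Finset.mul_sum, ← Finset.sum_add_distrib]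
    refine Finset.sum_congr rfl fun i _ => ?_
    rw [div_eq_mul_inv, div_eq_mul_inv, ← inv_pow, ← inv_pow, hd]
    linear_combination (α i * z ^ 2 * (1 + r i * z) * (e i + 1 + r i * z + r i ^ 2 * z ^ 2 * e i)
      + 2 * β i * z ^ 3 * (e i ^ 2 + e i + 1)) * hei i

/-- With these expansions the Vélu relation holds up to a function vanishing at infinity. -/
theorem velu_lt_one {x t w e₁ e₂ b₂ b₄ b₆ : F} (hz : v x⁻¹ < 1) (hx : x ≠ 0)
    (ht : t ∈ v.integer) (hw : w ∈ v.integer) (he₁ : e₁ ∈ v.integer) (he₂ : e₂ ∈ v.integer)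
    (hb₂ : b₂ ∈ v.integer) (hb₄ : b₄ ∈ v.integer) (hb₆ : b₆ ∈ v.integer) :
    v ((4 * x ^ 3 + b₂ * x ^ 2 + 2 * b₄ * x + b₆)
        * (1 - t * x⁻¹ ^ 2 - 2 * w * x⁻¹ ^ 3 + x⁻¹ ^ 4 * e₂) ^ 2
      - (4 * (x + t * x⁻¹ + w * x⁻¹ ^ 2 + x⁻¹ ^ 3 * e₁) ^ 3
        + b₂ * (x + t * x⁻¹ + w * x⁻¹ ^ 2 + x⁻¹ ^ 3 * e₁) ^ 2
        + 2 * (b₄ - 10 * t) * (x + t * x⁻¹ + w * x⁻¹ ^ 2 + x⁻¹ ^ 3 * e₁)
        + (b₆ - 4 * b₂ * t - 28 * w))) < 1 := by
  obtain ⟨z, hzd⟩ : ∃ z, z = x⁻¹ := ⟨_, rfl⟩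
  have hx' : x = z⁻¹ := by rw [hzd, inv_inv]
  have hz0 : z ≠ 0 := by rw [hzd]; exact inv_ne_zero hx
  rw [← hzd] at hz ⊢
  have hzm : z ∈ v.integer := (v.mem_integer_iff _).2 hz.le
  rw [show (4 * x ^ 3 + b₂ * x ^ 2 + 2 * b₄ * x + b₆)
        * (1 - t * z ^ 2 - 2 * w * z ^ 3 + z ^ 4 * e₂) ^ 2
      - (4 * (x + t * z + w * z ^ 2 + z ^ 3 * e₁) ^ 3
        + b₂ * (x + t * z + w * z ^ 2 + z ^ 3 * e₁) ^ 2
        + 2 * (b₄ - 10 * t) * (x + t * z + w * z ^ 2 + z ^ 3 * e₁)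
        + (b₆ - 4 * b₂ * t - 28 * w))
      = z * (8 * e₂ + 2 * b₂ * (-2 * w + z * e₂) + 2 * (2 * b₄ + b₆ * z) * (-t - 2 * w * z + z ^ 2 * e₂)
        + (4 + b₂ * z + 2 * b₄ * z ^ 2 + b₆ * z ^ 3) * (-t - 2 * w * z + z ^ 2 * e₂) ^ 2
        - 12 * e₁ - 2 * b₂ * (w + z * e₁) - 2 * (b₄ - 10 * t) * (t + w * z + z ^ 2 * e₁)
        - 4 * (3 * (t + w * z + z ^ 2 * e₁) ^ 2 + z ^ 2 * (t + w * z + z ^ 2 * e₁) ^ 3)
        - b₂ * z * (t + w * z + z ^ 2 * e₁) ^ 2) by rw [hx']; field_simp; ring, map_mul]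
  refine lt_of_le_of_lt (mul_le_of_le_one_right' ?_) hz
  rw [← v.mem_integer_iff]
  have hn : ∀ n : ℕ, (n : F) ∈ v.integer := fun n => natCast_mem _ n
  have h2 : (2 : F) ∈ v.integer := by exact_mod_cast hn 2
  have h3 : (3 : F) ∈ v.integer := by exact_mod_cast hn 3
  have h4 : (4 : F) ∈ v.integer := by exact_mod_cast hn 4
  have h8 : (8 : F) ∈ v.integer := by exact_mod_cast hn 8
  have h10 : (10 : F) ∈ v.integer := by exact_mod_cast hn 10
  have h12 : (12 : F) ∈ v.integer := by exact_mod_cast hn 12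
  repeat' first | assumption | apply add_mem | apply sub_mem | apply mul_mem | apply pow_mem | apply neg_mem

theorem map_mul_lt_one {z a : F} (hz : v z < 1) (ha : v a ≤ 1) : v (z * a) < 1 := by
  rw [map_mul]; exact lt_of_le_of_lt (mul_le_of_le_one_right' ha) hz

theorem one_sub_tail_ne_zero {z t w e : F} (hz : v z < 1) (ht : t ∈ v.integer) (hw : w ∈ v.integer)
    (he : e ∈ v.integer) : 1 - t * z ^ 2 - 2 * w * z ^ 3 + z ^ 4 * e ≠ 0 := by
  intro h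
  have hzm : z ∈ v.integer := (v.mem_integer_iff _).2 hz.le
  have h2 : (2 : F) ∈ v.integer := by exact_mod_cast natCast_mem v.integer 2
  have h1 : v (t * z + 2 * w * z ^ 2 - z ^ 3 * e) ≤ 1 := by
    rw [← v.mem_integer_iff]
    repeat' first | assumption | apply pow_mem | apply sub_mem | apply add_mem | apply mul_mem
  have h4 := v.map_one_sub_of_lt (map_mul_lt_one v hz h1)
  rw [show (1 : F) - z * (t * z + 2 * w * z ^ 2 - z ^ 3 * e) = 0 by linear_combination h,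
    map_zero] at h4
  exact zero_ne_one h4

end FLTAgent.Isogeny
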