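import Fermat.Agent.Isogeny.Velu

/-!
The invariant derivation commutes with translations.
-/

set_option autoImplicit false
set_option linter.unusedSectionVars false

open scoped nonZeroDivisors Polynomial.Bivariate WeierstrassCurve.Affine
open Polynomial
open WeierstrassCurve WeierstrassCurve.Affine WeierstrassCurve.Affine.CoordinateRing
open FLTAgent.WeilPairing

namespace FLTAgent.Isogeny

noncomputable section

variable {K : Type*} [Field K] {W : Affine K}

local notation "F" => W.FunctionField
local notation "ι" => const W

/-- The differential of the abscissa determines that of the ordinate. -/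
theorem hasOmega_of_D {V : Affine K} {U Z c : F}
    (e : Z ^ 2 + ι V.a₁ * U * Z + ι V.a₃ * Z = U ^ 3 + ι V.a₂ * U ^ 2 + ι V.a₄ * U + ι V.a₆)
    (hne : psi V U Z ≠ 0) (hU : D U = c * psi V U Z) : HasOmega V U Z c := by
  refine ⟨hU, mul_left_cancel₀ hne ?_⟩
  have he := congrArg D e
  simp only [D_add, D_mul, D_const, pow_succ, pow_zero, one_mul] at he
  rw [hU] at he
  rw [psi, num] at *
  linear_combination he

/-- The negative of a point has the opposite differential. -/
theorem HasOmega.neg {V : Affine K} {U Z c : F} (h : HasOmega V U Z c) :
    HasOmega V U (-Z - ι V.a₁ * U - ι V.a₃) (-c) := by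
  refine ⟨by rw [h.1, psi, psi]; ring, ?_⟩
  rw [D_sub, D_sub, D_neg, D_mul, D_const, D_const, h.1, h.2, num, num, psi]
  ring

theorem hasOmega_gen : HasOmega W (xfun W) (yfun W) 1 :=
  ⟨by rw [one_mul, D_xfun], by rw [one_mul, D_yfun]⟩

theorem hasOmega_const (V : Affine K) (s r : K) : HasOmega V (ι s) (ι r) 0 :=
  ⟨by simp, by simp⟩

variable [IsAlgClosed K] [W.IsElliptic] [DecidableEq K] [CharZero K]

lemma psi_gen_ne_zero : psi W (xfun W) (yfun W) ≠ 0 := fun h =>
  one_ne_zero (eq_zero_of_add_mul_psi (W := W) (p := 0) (q := 1) (by simp [atX, h])).2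

lemma translate_psi (P : W.Point) : translate P (psi W (xfun W) (yfun W)) =
    psi W (translate P (xfun W)) (translate P (yfun W)) := by
  simp [psi, map_ofNat]

lemma translate_equation (P : W.Point) :
    translate P (yfun W) ^ 2 + ι W.a₁ * translate P (xfun W) * translate P (yfun W)
      + ι W.a₃ * translate P (yfun W) = translate P (xfun W) ^ 3
      + ι W.a₂ * translate P (xfun W) ^ 2 + ι W.a₄ * translate P (xfun W) + ι W.a₆ := by
  have := congrArg (translate P) (gen_equation W)
  simpa only [map_add, map_mul, map_pow, translate_const] using this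

theorem D_translate_gen (P : W.Point) :
    D (translate P (xfun W)) = translate P (D (xfun W)) ∧
    D (translate P (yfun W)) = translate P (D (yfun W)) := by
  have hne : psi W (translate P (xfun W)) (translate P (yfun W)) ≠ 0 := by
    rw [← translate_psi]; exact (_root_.map_ne_zero _).2 psi_gen_ne_zero
  have h : HasOmega W (translate P (xfun W)) (translate P (yfun W)) 1 := by
    refine hasOmega_of_D (translate_equation P) hne ?_
    rcases P with _ | ⟨s, r, h⟩
    · rw [← Point.zero_def, translate_zero, translate_zero, one_mul, D_xfun]
    · obtain ⟨hx, hy⟩ := translate_xy h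
      have eT := congrArg ι ((equation_iff s r).1 h.1)
      simp only [map_add, map_mul, map_pow] at eT
      rw [D_addX (gen_equation W) eT hasOmega_gen (hasOmega_const W s r)
        (sub_ne_zero.1 (ord_xfun_sub_const (W := W) s).1) rfl hx, ← hy, add_zero]
  refine ⟨by rw [D_xfun, translate_psi, h.1, one_mul], ?_⟩
  rw [h.2, D_yfun, one_mul, num, num]
  simp [map_ofNat]

theorem D_translate_div (P : W.Point) {A B : F} (hA : D (translate P A) = translate P (D A))
    (hB : D (translate P B) = translate P (D B)) (hB0 : B ≠ 0) :
    D (translate P (A / B)) = translate P (D (A / B)) := by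
  have hB' : translate P B ≠ 0 := (_root_.map_ne_zero _).2 hB0
  rw [map_div₀]
  refine mul_right_cancel₀ hB' ?_
  rw [D_div hB', ← map_mul, D_div hB0, map_sub, map_mul, map_div₀, hA, hB]

/-- `D` commutes with translations. -/
theorem D_translate (P : W.Point) (f : F) : D (translate P f) = translate P (D f) := by
  have hadd : ∀ a b : F, D (translate P a) = translate P (D a) →
      D (translate P b) = translate P (D b) → D (translate P (a + b)) = translate P (D (a + b)) :=
    fun a b ha hb => by rw [map_add, D_add, D_add, map_add, ha, hb]
  have hmul : ∀ a b : F, D (translate P a) = translate P (D a) →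
      D (translate P b) = translate P (D b) → D (translate P (a * b)) = translate P (D (a * b)) :=
    fun a b ha hb => by simp only [map_mul, D_mul, map_add, ha, hb]
  have hpoly : ∀ p : K[X], D (translate P (atX p)) = translate P (D (atX p)) := by
    intro p
    induction p using Polynomial.induction_on with
    | C c => simp
    | add p q hp hq => simp only [eval₂_add]; exact hadd _ _ hp hq
    | monomial n c ih =>
      rw [pow_succ, ← mul_assoc]
      simp only [eval₂_mul, eval₂_X]
      simp only [eval₂_mul] at ih
      exact hmul _ _ ih (D_translate_gen P).1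
  have halg : ∀ a : W.CoordinateRing, D (translate P (algebraMap W.CoordinateRing F a)) =
      translate P (D (algebraMap W.CoordinateRing F a)) := by
    intro a
    obtain ⟨p, q, rfl⟩ := exists_smul_basis_eq a
    have e : algebraMap W.CoordinateRing F (p • (1 : W.CoordinateRing) + q • mk W Y) =
        atX p + atX q * yfun W := by
      rw [CoordinateRing.smul, CoordinateRing.smul, mul_one, map_add, map_mul, atX_eq, atX_eq]
      rfl
    rw [e]
    exact hadd _ _ (hpoly p) (hmul _ _ (hpoly q) (D_translate_gen P).2)
  obtain ⟨a, b, hb, rfl⟩ := IsFractionRing.div_surjective W.CoordinateRing f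
  have hb0 : algebraMap W.CoordinateRing F b ≠ 0 := by
    rw [ne_eq, map_eq_zero_iff _ (IsFractionRing.injective W.CoordinateRing F)]
    exact nonZeroDivisors.ne_zero hb
  exact D_translate_div P (halg a) (halg b) hb0

end

end FLTAgent.Isogeny
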