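import Fermat.Agent.Isogeny.Derivation
import Fermat.Agent.Isogeny.Pair
import Fermat.Agent.Isogeny.Series

/-!
Vélu's functions of a finite subgroup `C`: `X = ∑ (x(·+T) - x(T))`, `Ψ = ∑ ψ(·+T)`, the curve
they satisfy, and the fact that the new invariant differential is the old one.
-/

set_option autoImplicit false
set_option linter.unusedSectionVars false

open scoped nonZeroDivisors Polynomial.Bivariate WeierstrassCurve.Affine
open Polynomial
open WeierstrassCurve WeierstrassCurve.Affine WeierstrassCurve.Affine.CoordinateRing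
open FLTAgent.WeilPairing

namespace FLTAgent.Isogeny

noncomputable section

variable {K : Type*} [Field K] {W : Affine K}

local notation "F" => W.FunctionField
local notation "ι" => const W

/-- The abscissa, `0` at infinity. -/
def ptX : W.Point → K
  | .zero => 0
  | @Point.some _ _ _ x _ _ => x

/-- `2y + a₁x + a₃`, `0` at infinity. -/
def ptPsi : W.Point → K
  | .zero => 0
  | @Point.some _ _ _ x y _ => 2 * y + W.a₁ * x + W.a₃

/-- Vélu's `v_T`. -/
def veluV : W.Point → K
  | .zero => 0
  | @Point.some _ _ _ x _ _ =>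
      6 * x ^ 2 + (W.a₁ ^ 2 + 4 * W.a₂) * x + (2 * W.a₄ + W.a₁ * W.a₃)

@[simp] lemma ptX_neg (P : W.Point) : ptX (-P) = ptX P := by cases P <;> rfl

section elliptic

variable [IsAlgClosed K] [W.IsElliptic] [DecidableEq K]

variable (W) in
lemma valInfty_xfun_inv_lt : valInfty W (xfun W)⁻¹ < 1 := by
  have hx := ord_xfun (W := W)
  have h0 : xfun W ≠ 0 := by intro h; rw [h] at hx; simp at hx
  rw [show valInfty W = valAt (0 : W.Point) from rfl, valAt_eq_exp _ (inv_ne_zero h0), ord_inv, hx,
    ← WithZero.exp_zero, WithZero.exp_lt_exp]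
  norm_num

lemma valAt_const_le (P : W.Point) (c : K) : valAt P (ι c) ≤ 1 := by
  rcases eq_or_ne c 0 with rfl | hc
  · simp
  · rw [valAt_eq_exp P ((_root_.map_ne_zero _).2 hc), ord_const, neg_zero, WithZero.exp_zero]

lemma const_mem (P : W.Point) (c : K) : ι c ∈ (valAt P).integer :=
  (Valuation.mem_integer_iff _ _).2 (valAt_const_le P c)

lemma eq_zero_of_valAt_const_lt_one (P : W.Point) {c : K} (h : valAt P (ι c) < 1) : c = 0 := by
  by_contra hc
  rw [valAt_eq_exp P ((_root_.map_ne_zero _).2 hc), ord_const, neg_zero, WithZero.exp_zero] at h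
  exact lt_irrefl _ h

lemma valAt_translate (Q P : W.Point) (f : F) : valAt Q (translate P f) = valAt (Q + P) f := by
  rcases eq_or_ne f 0 with rfl | hf
  · simp
  · rw [valAt_eq_exp _ ((_root_.map_ne_zero (translate P)).2 hf), valAt_eq_exp _ hf, ord_translate]

lemma algebraMap_mem {P : W.Point} (hP : P ≠ 0) (a : W.CoordinateRing) :
    algebraMap W.CoordinateRing F a ∈ (valAt P).integer := by
  rcases P with _ | ⟨x, y, h⟩
  · exact absurd rfl hP
  · exact (Valuation.mem_integer_iff _ _).2 (by simpa [valAt] using (heightOne h).valuation_le_one a)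

lemma psi_gen_mem {P : W.Point} (hP : P ≠ 0) :
    psi W (xfun W) (yfun W) ∈ (valAt P).integer := by
  have h2 : (2 : F) ∈ (valAt P).integer := by
    rw [← map_ofNat (const W) 2]; exact const_mem P 2
  exact add_mem (add_mem (mul_mem h2 (algebraMap_mem hP _))
    (mul_mem (const_mem P _) (algebraMap_mem hP _))) (const_mem P _)

/-- Translates of `x` and `y`. -/
theorem translate_xy {s r : K} (h : W.Nonsingular s r) :
    let l := (yfun W - ι r) / (xfun W - ι s)
    translate (Point.some s r h) (xfun W) = l ^ 2 + ι W.a₁ * l - ι W.a₂ - xfun W - ι s ∧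
    translate (Point.some s r h) (yfun W) =
      -(l * (translate (Point.some s r h) (xfun W) - xfun W) + yfun W)
        - ι W.a₁ * translate (Point.some s r h) (xfun W) - ι W.a₃ := by
  obtain ⟨h', he⟩ := embedPt_some h
  have hxne : xfun W ≠ ι s := sub_ne_zero.1 (ord_xfun_sub_const (W := W) s).1
  have hg := map_translate_gen (W := W) (Point.some s r h)
  rw [he, gen, Point.map_some, Point.add_of_X_ne hxne, Point.some.injEq] at hg
  obtain ⟨hX, hY⟩ := hg
  rw [Affine.slope_of_X_ne hxne] at hX hY
  simp only [Affine.addX, Affine.addY, Affine.negAddY, Affine.negY, WeierstrassCurve.baseChange,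
    WeierstrassCurve.map_a₁, WeierstrassCurve.map_a₂, WeierstrassCurve.map_a₃,
    algebraMap_functionField] at hX hY
  exact ⟨hX, by rw [hY, hX]⟩

variable (W) in
/-- `v/(x - x_T) + u/(x - x_T)²`. -/
def corrX (T : W.Point) : F :=
  ι (veluV T) / (xfun W - ι (ptX T)) + ι (ptPsi T ^ 2) / (xfun W - ι (ptX T)) ^ 2

variable (W) in
/-- `v/(x - x_T)² + 2u/(x - x_T)³`. -/
def corrPsi (T : W.Point) : F :=
  ι (veluV T) / (xfun W - ι (ptX T)) ^ 2 + 2 * ι (ptPsi T ^ 2) / (xfun W - ι (ptX T)) ^ 3

theorem translate_pair (T : W.Point) :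
    translate T (xfun W) + translate (-T) (xfun W) - 2 * ι (ptX T)
      = (if T = 0 then 2 * xfun W else 0) + corrX W T ∧
    translate T (psi W (xfun W) (yfun W)) + translate (-T) (psi W (xfun W) (yfun W))
      = (if T = 0 then 2 * psi W (xfun W) (yfun W) else 0)
        - psi W (xfun W) (yfun W) * corrPsi W T := by
  rcases T with _ | ⟨s, r, h⟩
  · rw [← Point.zero_def]
    simp only [neg_zero, translate_zero, if_true, corrX, corrPsi,
      show ptX (0 : W.Point) = 0 from rfl, show ptPsi (0 : W.Point) = 0 from rfl,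
      show veluV (0 : W.Point) = 0 from rfl]
    simp [two_mul]
  · rw [if_neg (Point.some_ne_zero h), if_neg (Point.some_ne_zero h), zero_add, zero_sub,
      Point.neg_some]
    obtain ⟨hx1, hy1⟩ := translate_xy h
    obtain ⟨hx2, hy2⟩ := translate_xy ((nonsingular_neg s r).2 h)
    simp only [negY] at hx2 hy2
    have eT := congrArg ι ((equation_iff s r).1 h.1)
    simp only [map_add, map_mul, map_pow] at eT
    have hd : xfun W - ι s ≠ 0 := (ord_xfun_sub_const (W := W) s).1
    simp only [map_sub, map_mul, map_neg] at hx2 hy2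
    refine ⟨?_, ?_⟩
    · rw [hx1]
      simp only [negY]
      rw [hx2]
      simp only [corrX, ptX, ptPsi, veluV, map_add, map_mul, map_pow, map_ofNat]
      exact pair_x (gen_equation W) eT hd
    · simp only [psi, map_add, map_mul, translate_const, map_ofNat, negY]
      rw [hy1, hy2]
      simp only [corrPsi, ptX, ptPsi, veluV, map_add, map_mul, map_pow, map_ofNat, ← neg_mul]
      exact pair_psi (gen_equation W) eT hd rfl rfl hx1 hx2

variable (C : AddSubgroup W.Point) [Fintype C]

/-- Vélu's `X`. -/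
def veluX : F := (∑ T : C, translate (T : W.Point) (xfun W)) - ι (∑ T : C, ptX (T : W.Point))

/-- Vélu's `Ψ = 2Y + a₁X + a₃`. -/
def veluPsi : F := ∑ T : C, translate (T : W.Point) (psi W (xfun W) (yfun W))

/-- Vélu's `t`. -/
def veluT : K := (∑ T : C, veluV (T : W.Point)) / 2

/-- Vélu's `w`. -/
def veluW : K := (∑ T : C, (veluV (T : W.Point) * ptX (T : W.Point) + ptPsi (T : W.Point) ^ 2)) / 2

theorem translate_veluX {S : W.Point} (hS : S ∈ C) : translate S (veluX C) = veluX C := by
  simp only [veluX, map_sub, map_sum, translate_translate, translate_const]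
  exact congrArg₂ (· - ·)
    (Equiv.sum_comp (Equiv.addLeft (⟨S, hS⟩ : C)) fun T : C => translate (T : W.Point) (xfun W)) rfl

theorem translate_veluPsi {S : W.Point} (hS : S ∈ C) : translate S (veluPsi C) = veluPsi C := by
  simp only [veluPsi, map_sum, translate_translate]
  exact Equiv.sum_comp (Equiv.addLeft (⟨S, hS⟩ : C))
    fun T : C => translate (T : W.Point) (psi W (xfun W) (yfun W))

theorem sum_ite_coe_zero {M : Type*} [AddCommMonoid M] (c : M) :
    (∑ T : C, if (T : W.Point) = 0 then c else 0) = c := by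
  rw [Finset.sum_eq_single (0 : C)]
  · exact if_pos rfl
  · exact fun T _ hT => if_neg fun e => hT (Subtype.ext e)
  · exact fun hh => absurd (Finset.mem_univ _) hh

variable [CharZero K]

omit [IsAlgClosed K] [W.IsElliptic] in
lemma two_ne_zero' : (2 : F) ≠ 0 := by
  rw [← map_ofNat (const W) 2]; exact (_root_.map_ne_zero _).2 two_ne_zero

theorem two_mul_veluX : 2 * veluX C = 2 * xfun W + ∑ T : C, corrX W (T : W.Point) := by
  have h1 : (∑ T : C, translate (-(T : W.Point)) (xfun W)) =
      ∑ T : C, translate (T : W.Point) (xfun W) :=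
    Equiv.sum_comp (Equiv.neg C) fun T : C => translate (T : W.Point) (xfun W)
  have h := Finset.sum_congr rfl fun (T : C) (_ : T ∈ Finset.univ) =>
    (translate_pair (T : W.Point)).1
  rw [Finset.sum_sub_distrib, Finset.sum_add_distrib, Finset.sum_add_distrib, h1,
    sum_ite_coe_zero, ← Finset.mul_sum, ← map_sum] at h
  rw [veluX]
  linear_combination h

theorem two_mul_veluPsi :
    2 * veluPsi C = psi W (xfun W) (yfun W) * (2 - ∑ T : C, corrPsi W (T : W.Point)) := by
  have h1 : (∑ T : C, translate (-(T : W.Point)) (psi W (xfun W) (yfun W))) =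
      ∑ T : C, translate (T : W.Point) (psi W (xfun W) (yfun W)) :=
    Equiv.sum_comp (Equiv.neg C) fun T : C => translate (T : W.Point) (psi W (xfun W) (yfun W))
  have h := Finset.sum_congr rfl fun (T : C) (_ : T ∈ Finset.univ) =>
    (translate_pair (T : W.Point)).2
  rw [Finset.sum_add_distrib, Finset.sum_sub_distrib, h1,
    sum_ite_coe_zero, ← Finset.mul_sum] at h
  rw [veluPsi]
  linear_combination h

/-- The target curve of Vélu. -/
def velu : Affine K :=
  { a₁ := W.a₁, a₂ := W.a₂, a₃ := W.a₃, a₄ := W.a₄ - 5 * veluT C,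
    a₆ := W.a₆ - W.b₂ * veluT C - 7 * veluW C }

/-- Vélu's `Y`. -/
def veluY : F := (veluPsi C - ι W.a₁ * veluX C - ι W.a₃) / 2

lemma psi_velu : psi (velu C) (veluX C) (veluY C) = veluPsi C := by
  have := two_ne_zero' (W := W)
  simp only [psi, velu, veluY]
  field_simp
  ring

lemma exists_expansion_velu : ∃ e₁ ∈ (valInfty W).integer, ∃ e₂ ∈ (valInfty W).integer,
    veluX C = xfun W + ι (veluT C) * (xfun W)⁻¹ + ι (veluW C) * (xfun W)⁻¹ ^ 2
      + (xfun W)⁻¹ ^ 3 * e₁ ∧
    veluPsi C = psi W (xfun W) (yfun W) * (1 - ι (veluT C) * (xfun W)⁻¹ ^ 2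
      - 2 * ι (veluW C) * (xfun W)⁻¹ ^ 3 + (xfun W)⁻¹ ^ 4 * e₂) := by
  have hx0 : xfun W ≠ 0 := by
    have hx := ord_xfun (W := W); intro h; rw [h] at hx; simp at hx
  have h2 := two_ne_zero' (W := W)
  obtain ⟨E₁, hE₁, E₂, hE₂, h1, h2'⟩ := exists_expansion (valInfty W) (Finset.univ : Finset C)
    (valInfty_xfun_inv_lt W) hx0 (fun T => ι (veluV (T : W.Point)))
    (fun T => ι (ptPsi (T : W.Point) ^ 2)) (fun T => ι (ptX (T : W.Point)))
    (fun _ => const_mem (0 : W.Point) _) (fun _ => const_mem (0 : W.Point) _)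
    (fun _ => const_mem (0 : W.Point) _)
  have hhalf : (2 : F)⁻¹ ∈ (valInfty W).integer := by
    rw [← map_ofNat (const W) 2, ← map_inv₀]; exact const_mem (0 : W.Point) _
  have hx := two_mul_veluX C
  have hp := two_mul_veluPsi C
  simp only [corrX] at hx
  simp only [corrPsi] at hp
  rw [h1] at hx
  rw [h2'] at hp
  simp only [← map_mul, ← map_add, ← map_sum] at hx hp
  refine ⟨2⁻¹ * E₁, mul_mem hhalf hE₁, -(2⁻¹ * E₂), neg_mem (mul_mem hhalf hE₂), ?_, ?_⟩
  · refine mul_left_cancel₀ h2 ?_
    rw [hx]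
    simp only [veluT, veluW, map_div₀, map_ofNat]
    field_simp
    ring
  · refine mul_left_cancel₀ h2 ?_
    rw [hp]
    simp only [veluT, veluW, map_div₀, map_ofNat]
    field_simp
    ring

lemma psi_gen_sq : psi W (xfun W) (yfun W) ^ 2 = 4 * xfun W ^ 3 + ι W.b₂ * xfun W ^ 2
    + 2 * ι W.b₄ * xfun W + ι W.b₆ := by
  simp only [psi, WeierstrassCurve.b₂, WeierstrassCurve.b₄, WeierstrassCurve.b₆, map_add, map_mul,
    map_pow, map_ofNat]
  linear_combination 4 * gen_equation W

lemma veluX_mem {P : W.Point} (hP : P ∉ C) : veluX C ∈ (valAt P).integer := by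
  refine sub_mem (Subring.sum_mem _ fun T _ => ?_) (const_mem P _)
  rw [Valuation.mem_integer_iff, valAt_translate, ← Valuation.mem_integer_iff]
  refine algebraMap_mem (fun h => hP ?_) _
  rw [eq_neg_of_add_eq_zero_left h]; exact neg_mem T.2

lemma veluPsi_mem {P : W.Point} (hP : P ∉ C) : veluPsi C ∈ (valAt P).integer := by
  refine Subring.sum_mem _ fun T _ => ?_
  rw [Valuation.mem_integer_iff, valAt_translate, ← Valuation.mem_integer_iff]
  refine psi_gen_mem (fun h => hP ?_)
  rw [eq_neg_of_add_eq_zero_left h]; exact neg_mem T.2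

/-- **Vélu's relation.** -/
theorem veluPsi_sq : veluPsi C ^ 2 = 4 * veluX C ^ 3 + ι W.b₂ * veluX C ^ 2
    + 2 * (ι W.b₄ - 10 * ι (veluT C)) * veluX C
    + (ι W.b₆ - 4 * ι W.b₂ * ι (veluT C) - 28 * ι (veluW C)) := by
  obtain ⟨D0, hD0⟩ : ∃ D0, D0 = veluPsi C ^ 2 - (4 * veluX C ^ 3 + ι W.b₂ * veluX C ^ 2
    + 2 * (ι W.b₄ - 10 * ι (veluT C)) * veluX C
    + (ι W.b₆ - 4 * ι W.b₂ * ι (veluT C) - 28 * ι (veluW C))) := ⟨_, rfl⟩
  have hinf : valAt (0 : W.Point) D0 < 1 := by
    obtain ⟨e₁, he₁, e₂, he₂, hX, hP⟩ := exists_expansion_velu C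
    have hx0 : xfun W ≠ 0 := by
      have hx := ord_xfun (W := W); intro h; rw [h] at hx; simp at hx
    rw [hD0, hP, hX, mul_pow, psi_gen_sq]
    exact velu_lt_one (valInfty W) (valInfty_xfun_inv_lt W) hx0 (const_mem (0 : W.Point) _)
      (const_mem (0 : W.Point) _) he₁ he₂ (const_mem (0 : W.Point) _) (const_mem (0 : W.Point) _)
      (const_mem (0 : W.Point) _)
  have hall : ∀ P : W.Point, valAt P D0 ≤ 1 := by
    intro P
    by_cases hP : P ∈ C
    · have : translate P D0 = D0 := by
        simp only [hD0, map_sub, map_add, map_mul, map_pow, translate_veluX C hP,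
          translate_veluPsi C hP, translate_const, map_ofNat]
      have h := valAt_translate (0 : W.Point) P D0
      rw [zero_add, this] at h
      rw [← h]; exact hinf.le
    · rw [← Valuation.mem_integer_iff, hD0]
      have hn : ∀ n : ℕ, (n : F) ∈ (valAt P).integer := fun n => natCast_mem _ n
      have h2 : (2 : F) ∈ (valAt P).integer := by exact_mod_cast hn 2
      have h4 : (4 : F) ∈ (valAt P).integer := by exact_mod_cast hn 4
      have h10 : (10 : F) ∈ (valAt P).integer := by exact_mod_cast hn 10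
      have h28 : (28 : F) ∈ (valAt P).integer := by exact_mod_cast hn 28
      have hX := veluX_mem C hP
      have hΨ := veluPsi_mem C hP
      have hc := const_mem (W := W) P
      repeat' first | assumption | exact hc _ | apply pow_mem | apply sub_mem | apply add_mem | apply mul_mem
  obtain ⟨c, hc⟩ := exists_const_of_ord_nonneg (f := D0) fun P => by
    rcases eq_or_ne D0 0 with h | h
    · simp [h]
    · exact (le_ord_iff P h 0).2 (by simpa using hall P)
  rw [hc] at hinf
  rw [eq_zero_of_valAt_const_lt_one _ hinf, map_zero] at hc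
  linear_combination -hD0 + hc

theorem velu_equation : veluY C ^ 2 + ι (velu C).a₁ * veluX C * veluY C + ι (velu C).a₃ * veluY C =
    veluX C ^ 3 + ι (velu C).a₂ * veluX C ^ 2 + ι (velu C).a₄ * veluX C + ι (velu C).a₆ := by
  have h := veluPsi_sq C
  have h2 := two_ne_zero' (W := W)
  simp only [WeierstrassCurve.b₂, WeierstrassCurve.b₄, WeierstrassCurve.b₆, map_add, map_mul,
    map_pow, map_ofNat] at h
  simp only [velu, veluY, WeierstrassCurve.b₂, map_add, map_sub, map_mul, map_pow, map_ofNat]
  field_simp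
  linear_combination h

lemma veluPsi_ne_zero : veluPsi C ≠ 0 := by
  obtain ⟨e₁, he₁, e₂, he₂, -, hP⟩ := exists_expansion_velu C
  rw [hP]
  refine mul_ne_zero (fun h => ?_) fun h => ?_
  · have h1 := (eq_zero_of_add_mul_psi (W := W) (p := 0) (q := 1) (by simp [atX, h])).2
    exact one_ne_zero h1
  · exact one_sub_tail_ne_zero (valInfty W) (valInfty_xfun_inv_lt W)
      (const_mem (0 : W.Point) _) (const_mem (0 : W.Point) _) he₂ h

/-- The new invariant differential is the old one. -/
theorem hasOmega_velu : HasOmega (velu C) (veluX C) (veluY C) 1 := by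
  have h2 := two_ne_zero' (W := W)
  have hD2 : D (2 : F) = 0 := by rw [← map_ofNat (const W) 2, D_const]
  have hne : ∀ T : W.Point, xfun W - ι (ptX T) ≠ 0 := fun T => (ord_xfun_sub_const (W := W) _).1
  have hX : D (veluX C) = veluPsi C := by
    refine mul_left_cancel₀ h2 ?_
    have h := congrArg D (two_mul_veluX C)
    rw [D_mul, D_add, D_mul, hD2, D_sum, D_xfun] at h
    have hT : ∀ T : C, D (corrX W (T : W.Point)) =
        -(psi W (xfun W) (yfun W) * corrPsi W (T : W.Point)) := by
      intro T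
      have hd := hne (T : W.Point)
      have e1 := D_div (f := ι (veluV (T : W.Point))) (g := xfun W - ι (ptX (T : W.Point))) hd
      have e2 := D_div (f := ι (ptPsi (T : W.Point) ^ 2))
        (g := (xfun W - ι (ptX (T : W.Point))) ^ 2) (pow_ne_zero 2 hd)
      rw [pow_two (xfun W - _), D_mul, ← pow_two] at e2
      simp only [D_const, D_sub, D_xfun, sub_zero] at e1 e2
      rw [corrX, corrPsi, D_add]
      refine mul_right_cancel₀ (pow_ne_zero 2 hd) ?_
      rw [add_mul, e2]
      rw [show D (ι (veluV (T : W.Point)) / (xfun W - ι (ptX (T : W.Point))))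
        * (xfun W - ι (ptX (T : W.Point))) ^ 2 = D (ι (veluV (T : W.Point)) /
          (xfun W - ι (ptX (T : W.Point)))) * (xfun W - ι (ptX (T : W.Point)))
        * (xfun W - ι (ptX (T : W.Point))) by ring, e1]
      field_simp
      ring
    simp only [hT, Finset.sum_neg_distrib, ← Finset.mul_sum] at h
    rw [two_mul_veluPsi]
    linear_combination h
  refine ⟨by rw [one_mul, psi_velu, hX], ?_⟩
  have he := congrArg D (velu_equation C)
  simp only [D_add, D_mul, D_const, pow_succ, pow_zero, one_mul] at he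
  refine mul_left_cancel₀ (veluPsi_ne_zero C) ?_
  have hΨ := psi_velu C
  rw [psi] at hΨ
  rw [one_mul, num]
  rw [hX] at he
  linear_combination he - D (veluY C) * hΨ

end elliptic

end

end FLTAgent.Isogeny
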